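/-
Strong multiplicity one, abstract part: a space with an injective Kirillov map is irreducible.
-/
import Mathlib.LinearAlgebra.Finsupp.LinearCombination
import Mathlib.Analysis.Complex.Basic
import Mathlib.Algebra.Group.Indicator
import Mathlib.Algebra.Group.AddChar
import Mathlib.GroupTheory.QuotientGroup.Basic

set_option autoImplicit false

noncomputable section

namespace Fermat.Agent.LT.RankinSelberg

/-- The sum of an additive character over representatives of a finite quotient on which it is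
defined: full if it is trivial on the group, zero otherwise. -/
theorem sum_addChar_reps {X : Type*} [AddCommGroup X] (B S : AddSubgroup X)
    [Fintype (B ⧸ S.addSubgroupOf B)] (χ : AddChar X ℂ) (hS : ∀ x ∈ S, χ x = 1)
    [Decidable (∀ x ∈ B, χ x = 1)] :
    ∑ q : B ⧸ S.addSubgroupOf B, χ (q.out : B)
      = if ∀ x ∈ B, χ x = 1 then (Fintype.card (B ⧸ S.addSubgroupOf B) : ℂ) else 0 := by
  split_ifs with h
  · rw [Finset.sum_congr rfl fun q _ => h _ (q.out).2]; simp
  · push Not at h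
    obtain ⟨y, hy, hy1⟩ := h
    set y' : B ⧸ S.addSubgroupOf B := QuotientAddGroup.mk ⟨y, hy⟩
    have hshift : ∀ q : B ⧸ S.addSubgroupOf B,
        χ ((q + y').out : B) = χ (q.out : B) * χ y := by
      intro q
      obtain ⟨q, rfl⟩ := QuotientAddGroup.mk_surjective q
      obtain ⟨s, hs⟩ := QuotientAddGroup.mk_out_eq_add (S.addSubgroupOf B) (q + ⟨y, hy⟩)
      obtain ⟨s', hs'⟩ := QuotientAddGroup.mk_out_eq_add (S.addSubgroupOf B) q
      rw [show (QuotientAddGroup.mk q + y' : B ⧸ S.addSubgroupOf B)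
        = QuotientAddGroup.mk (q + ⟨y, hy⟩) from rfl, hs, hs']
      simp only [AddSubgroup.coe_add, AddChar.map_add_eq_mul]
      rw [hS _ (AddSubgroup.mem_addSubgroupOf.mp s.2), hS _ (AddSubgroup.mem_addSubgroupOf.mp s'.2)]
      ring
    have hsum : (∑ q : B ⧸ S.addSubgroupOf B, χ (q.out : B)) * χ y
        = ∑ q : B ⧸ S.addSubgroupOf B, χ (q.out : B) := by
      rw [Finset.sum_mul, ← Equiv.sum_comp (Equiv.addRight y') (fun q : B ⧸ S.addSubgroupOf B => χ (q.out : B))]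
      exact Finset.sum_congr rfl fun q _ => (hshift q).symm
    have h0 : (∑ q : B ⧸ S.addSubgroupOf B, χ (q.out : B)) * (χ y - 1) = 0 := by
      rw [mul_sub, mul_one, hsum, sub_self]
    exact (mul_eq_zero.mp h0).resolve_right (sub_ne_zero.mpr hy1)

section Kirillov

variable {A X V : Type*} [CommGroup A] [AddCommGroup V] [Module ℂ V]
  (W : V →ₗ[ℂ] A → ℂ) (L : A → V →ₗ[ℂ] V) (P : X → V →ₗ[ℂ] V) (ψ : X → A → ℂ)
  (U : ℕ → Subgroup A)

/-- A Kirillov model: an injective map to functions on `A`, with translations, modulations,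
small invariance groups, and separation of small cosets by modulations on each support. -/
structure IsKirillovModel : Prop where
  injective : Function.Injective W
  translate : ∀ t φ a, W (L t φ) a = W φ (a * t)
  modulate : ∀ x φ a, W (P x φ) a = ψ x a * W φ a
  invariant : ∀ φ, ∃ n, ∀ m, n ≤ m → ∀ a, ∀ u ∈ U m, W φ (a * u) = W φ a
  separate : ∀ φ, ∀ a₀ : A, ∃ n, ∀ m, n ≤ m → ∃ c : X →₀ ℂ, ∀ a, W φ a ≠ 0 →
    (c.sum fun x r => r * ψ x a) = (U m : Set A).indicator 1 (a₀⁻¹ * a)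

variable {W L P ψ U}

/-- Every nonzero stable subspace contains the indicators of all small enough `U m`. -/
theorem IsKirillovModel.exists_indicator (h : IsKirillovModel W L P ψ U) {M : Submodule ℂ V}
    (hL : ∀ t, ∀ φ ∈ M, L t φ ∈ M) (hP : ∀ x, ∀ φ ∈ M, P x φ ∈ M) (hM : M ≠ ⊥) :
    ∃ n₀, ∀ n, n₀ ≤ n → ∃ φ ∈ M, W φ = (U n : Set A).indicator 1 := by
  obtain ⟨φ, hφM, hφ⟩ := Submodule.exists_mem_ne_zero_of_ne_bot hM
  have hW : W φ ≠ 0 := fun h0 => hφ (h.injective (by rw [h0, map_zero]))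
  obtain ⟨a₀, ha₀⟩ : ∃ a, W φ a ≠ 0 := by
    by_contra hno; exact hW (funext fun a => not_not.mp fun hne => hno ⟨a, hne⟩)
  obtain ⟨n₁, hn₁⟩ := h.invariant φ
  obtain ⟨n₂, hn₂⟩ := h.separate φ a₀
  refine ⟨max n₁ n₂, fun m hm => ?_⟩
  obtain ⟨c, hc⟩ := hn₂ m (le_of_max_le_right hm)
  set η : V := (W φ a₀)⁻¹ • L a₀ (c.sum fun x r => r • P x φ)
  refine ⟨η, M.smul_mem _ (hL _ _ (M.sum_mem fun x _ =>
    M.smul_mem _ (hP x φ hφM))), ?_⟩
  funext a
  have hWa : W η a = (W φ a₀)⁻¹ * ((c.sum fun x r => r * ψ x (a * a₀)) * W φ (a * a₀)) := by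
    simp only [η, map_smul, Pi.smul_apply, smul_eq_mul, h.translate]
    simp only [Finsupp.sum, map_sum, map_smul, Finset.sum_apply, Pi.smul_apply, smul_eq_mul,
      h.modulate, Finset.sum_mul]
    congr 1
    exact Finset.sum_congr rfl fun x _ => by ring
  rw [hWa]
  have hinv : ∀ u ∈ U m, W φ (u * a₀) = W φ a₀ := fun u hu => by
    rw [mul_comm]; exact hn₁ m (le_of_max_le_left hm) a₀ u hu
  rcases eq_or_ne (W φ (a * a₀)) 0 with h0 | h0
  · rw [h0, mul_zero, mul_zero, Set.indicator_of_notMem]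
    exact fun ha => ha₀ (hinv a ha ▸ h0)
  · rw [hc _ h0, mul_comm a a₀, inv_mul_cancel_left]
    by_cases ha : a ∈ (U m : Set A)
    · rw [Set.indicator_of_mem ha, Pi.one_apply, mul_comm a₀ a, hinv a ha, one_mul,
        inv_mul_cancel₀ ha₀]
    · rw [Set.indicator_of_notMem ha, zero_mul, mul_zero]

/-- Any two nonzero stable subspaces meet. -/
theorem IsKirillovModel.inf_ne_bot (h : IsKirillovModel W L P ψ U) {M M' : Submodule ℂ V}
    (hL : ∀ t, ∀ φ ∈ M, L t φ ∈ M) (hP : ∀ x, ∀ φ ∈ M, P x φ ∈ M) (hM : M ≠ ⊥)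
    (hL' : ∀ t, ∀ φ ∈ M', L t φ ∈ M') (hP' : ∀ x, ∀ φ ∈ M', P x φ ∈ M') (hM' : M' ≠ ⊥) :
    M ⊓ M' ≠ ⊥ := by
  obtain ⟨n, hn⟩ := h.exists_indicator hL hP hM
  obtain ⟨n', hn'⟩ := h.exists_indicator hL' hP' hM'
  obtain ⟨φ, hφ, hWφ⟩ := hn (max n n') (le_max_left _ _)
  obtain ⟨φ', hφ', hWφ'⟩ := hn' (max n n') (le_max_right _ _)
  obtain rfl : φ = φ' := h.injective (hWφ.trans hWφ'.symm)
  rw [Submodule.ne_bot_iff]
  refine ⟨φ, ⟨hφ, hφ'⟩, fun h0 => ?_⟩
  have := congrFun hWφ 1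
  rw [h0, map_zero, Set.indicator_of_mem (U (max n n')).one_mem] at this
  exact one_ne_zero this.symm

/-- If the indicator of `U n` is a value of `W`, its preimage lies in every nonzero stable
subspace. -/
theorem IsKirillovModel.indicator_mem (h : IsKirillovModel W L P ψ U) (hanti : Antitone U)
    (hfin : ∀ n m, n ≤ m → ((U m).subgroupOf (U n)).FiniteIndex) {M : Submodule ℂ V}
    (hL : ∀ t, ∀ φ ∈ M, L t φ ∈ M) (hP : ∀ x, ∀ φ ∈ M, P x φ ∈ M) (hM : M ≠ ⊥) {n : ℕ} {φ : V}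
    (hφ : W φ = (U n : Set A).indicator 1) : φ ∈ M := by
  classical
  obtain ⟨n₀, hn₀⟩ := h.exists_indicator hL hP hM
  obtain ⟨η, hη, hWη⟩ := hn₀ (max n₀ n) (le_max_left _ _)
  have hle : U (max n₀ n) ≤ U n := hanti (le_max_right _ _)
  set H := (U (max n₀ n)).subgroupOf (U n)
  have : H.FiniteIndex := hfin _ _ (le_max_right _ _)
  have : Fintype (U n ⧸ H) := Fintype.ofFinite _
  set η' := ∑ q : U n ⧸ H, L ((q.out : A))⁻¹ η
  suffices W η' = W φ from h.injective this ▸ M.sum_mem fun q _ => hL _ _ hη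
  funext a
  simp only [η', map_sum, Finset.sum_apply, h.translate, hWη, hφ]
  by_cases ha : a ∈ U n
  · have key : ∀ q : U n ⧸ H,
        a * (q.out : A)⁻¹ ∈ (U (max n₀ n) : Set A) ↔ q = QuotientGroup.mk ⟨a, ha⟩ := fun q => by
      conv_rhs => rw [← QuotientGroup.out_eq' q, QuotientGroup.eq]
      simp [H, Subgroup.mem_subgroupOf, mul_comm]
    rw [Set.indicator_of_mem (show a ∈ (U n : Set A) from ha),
      Finset.sum_eq_single_of_mem (QuotientGroup.mk ⟨a, ha⟩) (Finset.mem_univ _) fun q _ hq =>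
        Set.indicator_of_notMem (fun hmem => hq ((key q).1 hmem)) _,
      Set.indicator_of_mem ((key _).2 rfl)]
    rfl
  · rw [Set.indicator_of_notMem (show a ∉ (U n : Set A) from ha)]
    refine Finset.sum_eq_zero fun q _ => Set.indicator_of_notMem (fun hmem => ha ?_) _
    simpa using mul_mem (hle hmem) q.out.2

end Kirillov

end Fermat.Agent.LT.RankinSelberg
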