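/-
The `q + 1` Hecke neighbours of `diag(ϖ, 1)` at a place where the level is maximal.
-/
import Fermat.Agent.LT.Adelic.Space

set_option autoImplicit false

noncomputable section

namespace Fermat.Agent.LT.RankinSelberg

open IsDedekindDomain NumberField Matrix Fermat.Agent.LT.Adelic

variable {R K : Type*} [CommRing R] [IsDedekindDomain R] [Field K] [Algebra R K]
  [IsFractionRing R K]

/-- Evaluation at a place. -/
def evalAt (w : HeightOneSpectrum R) : FiniteAdeleRing R K →+* w.adicCompletion K where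
  toFun a := a w
  map_one' := coe_apply_one w
  map_mul' a b := coe_apply_mul a b w
  map_zero' := coe_apply_zero w
  map_add' a b := coe_apply_add a b w

/-- The component of an adelic matrix at a place. -/
def compAt (w : HeightOneSpectrum R) : Gf R K →* GL (Fin 2) (w.adicCompletion K) :=
  GeneralLinearGroup.map (evalAt w)

theorem compAt_apply (w : HeightOneSpectrum R) (g : Gf R K) (i j : Fin 2) :
    (compAt w g : Matrix (Fin 2) (Fin 2) (w.adicCompletion K)) i j
      = (g : Matrix (Fin 2) (Fin 2) (FiniteAdeleRing R K)) i j w := rfl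

theorem gf_ext {g h : Gf R K} (H : ∀ w, compAt w g = compAt w h) : g = h := by
  refine Units.ext (Matrix.ext fun i j => FiniteAdeleRing.ext K fun w => ?_)
  rw [← compAt_apply, ← compAt_apply, H w]

/-- Integrality at a place. -/
def IsIntegralAt (w : HeightOneSpectrum R) (g : GL (Fin 2) (w.adicCompletion K)) : Prop :=
  (∀ i j, Valued.v ((g : Matrix (Fin 2) (Fin 2) (w.adicCompletion K)) i j) ≤ 1) ∧
    Valued.v (g : Matrix (Fin 2) (Fin 2) (w.adicCompletion K)).det = 1

theorem valued_det_le_one {w : HeightOneSpectrum R} {M : Matrix (Fin 2) (Fin 2) (w.adicCompletion K)}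
    (h : ∀ i j, Valued.v (M i j) ≤ 1) : Valued.v M.det ≤ 1 := by
  rw [det_fin_two]
  refine (Valuation.map_sub _ _ _).trans (max_le ?_ ?_) <;>
    (rw [map_mul]; exact mul_le_one' (h _ _) (h _ _))

theorem IsIntegralAt.of_both {w : HeightOneSpectrum R} {g : GL (Fin 2) (w.adicCompletion K)}
    (h : ∀ i j, Valued.v ((g : Matrix (Fin 2) (Fin 2) (w.adicCompletion K)) i j) ≤ 1)
    (h' : ∀ i j, Valued.v (((g⁻¹ : GL (Fin 2) _) : Matrix (Fin 2) (Fin 2) (w.adicCompletion K)) i j) ≤ 1) :
    IsIntegralAt w g := by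
  refine ⟨h, le_antisymm (valued_det_le_one h) ?_⟩
  have e : (g : Matrix (Fin 2) (Fin 2) (w.adicCompletion K)).det *
      ((g⁻¹ : GL (Fin 2) _) : Matrix (Fin 2) (Fin 2) (w.adicCompletion K)).det = 1 := by
    rw [← det_mul, Units.mul_inv, det_one]
  have e' := congrArg Valued.v e
  rw [map_mul, map_one] at e'
  calc (1 : WithZero (Multiplicative ℤ)) = _ := e'.symm
    _ ≤ Valued.v (g : Matrix (Fin 2) (Fin 2) (w.adicCompletion K)).det * 1 :=
        mul_le_mul' le_rfl (valued_det_le_one h')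
    _ = _ := mul_one _

theorem IsIntegralAt.inv_le {w : HeightOneSpectrum R} {g : GL (Fin 2) (w.adicCompletion K)}
    (h : IsIntegralAt w g) (i j : Fin 2) :
    Valued.v (((g⁻¹ : GL (Fin 2) _) : Matrix (Fin 2) (Fin 2) (w.adicCompletion K)) i j) ≤ 1 := by
  rw [Matrix.coe_units_inv, Matrix.inv_def, Matrix.smul_apply, smul_eq_mul, map_mul,
    Ring.inverse_eq_inv', map_inv₀, h.2, inv_one, one_mul, adjugate_fin_two]
  fin_cases i <;> fin_cases j <;> simp [h.1]

theorem mem_principalLevel_one_iff {g : Gf R K} :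
    g ∈ principalLevel K (1 : R) ↔ ∀ w, IsIntegralAt w (compAt w g) := by
  rw [mem_principalLevel_one, matMemMul_one, matMemMul_one]
  constructor
  · intro h w
    exact IsIntegralAt.of_both (fun i j => h.1 i j w) fun i j => by
      rw [← map_inv]; exact h.2 i j w
  · intro h
    refine ⟨fun i j w => (h w).1 i j, fun i j w => ?_⟩
    have := (h w).inv_le i j
    rwa [← map_inv] at this

/-- The level is maximal at `v`. -/
def HasFullLocal (U : Subgroup (Gf R K)) (v : HeightOneSpectrum R) : Prop :=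
  ∀ g ∈ principalLevel K (1 : R), (∀ w ≠ v, compAt w g = 1) → g ∈ U

theorem hasFullLocal_of_le {U : Subgroup (Gf R K)} {n : R} (hU : principalLevel K n ≤ U)
    {v : HeightOneSpectrum R} (hv : v.intValuation n = 1) : HasFullLocal U v := by
  intro g hg hloc
  refine hU (mem_principalLevel.mpr ?_)
  have key : ∀ h : Gf R K, h ∈ principalLevel K (1 : R) → (∀ w ≠ v, compAt w h = 1) →
      MatMemMul n ((h : Matrix (Fin 2) (Fin 2) (FiniteAdeleRing R K)) - 1) := by
    intro h hh hl i j w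
    by_cases hw : w = v
    · subst hw
      rw [hv]
      exact memMul_one_iff.mp (((mem_principalLevel.mp hh).1 i j)) w
    · have hz : ((h : Matrix (Fin 2) (Fin 2) (FiniteAdeleRing R K)) - 1) i j w = 0 := by
        rw [Matrix.sub_apply, coe_apply_sub, ← compAt_apply, hl w hw, Units.val_one,
          Matrix.one_apply, Matrix.one_apply]
        split <;> simp [coe_apply_one, coe_apply_zero]
      rw [hz, map_zero]; exact zero_le
  exact ⟨key g hg hloc, key g⁻¹ (inv_mem hg) fun w hw => by rw [map_inv, hloc w hw, inv_one]⟩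

theorem compAt_scalarHom (w : HeightOneSpectrum R) (c : (FiniteAdeleRing R K)ˣ) :
    (compAt w (scalarHom R K c) : Matrix (Fin 2) (Fin 2) (w.adicCompletion K))
      = ((c : FiniteAdeleRing R K) w) • 1 := by
  refine Matrix.ext fun i j => ?_
  rw [compAt_apply, Matrix.smul_apply, Matrix.one_apply]
  show (Matrix.scalar (Fin 2) (c : FiniteAdeleRing R K)) i j w = _
  rw [Matrix.scalar_apply, Matrix.diagonal_apply]
  split <;> simp [coe_apply_zero]

/-- In `U · centre` the squared entries are bounded by the determinant. -/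
theorem sq_entry_le_det {U : Subgroup (Gf R K)} (hU : U ≤ principalLevel K (1 : R)) {g : Gf R K}
    (hg : g ∈ levelZ U) (w : HeightOneSpectrum R) (i j : Fin 2) :
    Valued.v ((compAt w g : Matrix (Fin 2) (Fin 2) (w.adicCompletion K)) i j) ^ 2
      ≤ Valued.v (compAt w g : Matrix (Fin 2) (Fin 2) (w.adicCompletion K)).det := by
  obtain ⟨u, hu, z, ⟨c, rfl⟩, rfl⟩ := mem_levelZ.mp hg
  obtain ⟨h1, h2⟩ := mem_principalLevel_one_iff.mp (hU hu) w
  rw [map_mul, Units.val_mul, compAt_scalarHom, mul_smul_comm, mul_one, det_smul, map_mul, h2,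
    mul_one, Fintype.card_fin, map_pow, Matrix.smul_apply, smul_eq_mul, map_mul, mul_pow]
  exact mul_le_of_le_one_right' (pow_le_one' (h1 i j) 2)

section NumberField

variable {K : Type*} [Field K] [NumberField K] {U : Subgroup (GfK K)}
  {v : HeightOneSpectrum (𝓞 K)} {ϖ : (FiniteAdeleRing (𝓞 K) K)ˣ}

/-- An adele supported at `v`, congruent to `-r` there. -/
def localShift (ϖ : (FiniteAdeleRing (𝓞 K) K)ˣ) (r : 𝓞 K) : FiniteAdeleRing (𝓞 K) K :=
  ((ϖ : FiniteAdeleRing (𝓞 K) K) - 1) * algebraMap (𝓞 K) _ r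

theorem localShift_apply_of_ne (hϖ : IsUniformiserAt v ϖ) (r : 𝓞 K) {w : HeightOneSpectrum (𝓞 K)}
    (hw : w ≠ v) : localShift ϖ r w = 0 := by
  rw [localShift, coe_apply_mul, coe_apply_sub, coe_apply_one, hϖ.2 w hw, sub_self, zero_mul]

theorem valued_localShift_le (hϖ : IsUniformiserAt v ϖ) (r : 𝓞 K) :
    Valued.v (localShift ϖ r v) ≤ 1 := by
  rw [localShift, coe_apply_mul, map_mul]
  refine mul_le_one' ?_ (mem_intAdele.mp (algebraMap_mem_intAdele r) v)
  rw [coe_apply_sub, coe_apply_one]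
  refine (Valuation.map_sub _ _ _).trans (max_le ?_ (map_one _).le)
  rw [hϖ.1, ← WithZero.exp_zero, WithZero.exp_le_exp]; omega

/-- The matrices of the neighbours: `n(x) diag(ϖ, 1)` and `diag(1, ϖ)`. -/
def nbrMatrix (v : HeightOneSpectrum (𝓞 K)) (ϖ : (FiniteAdeleRing (𝓞 K) K)ˣ) :
    Option (𝓞 K ⧸ v.asIdeal) → GfK K
  | none => diag2 1 ϖ
  | some q => unipotent (localShift ϖ q.out) * heckeMatrix K ϖ

theorem compAt_unipotent (w : HeightOneSpectrum (𝓞 K)) (a : FiniteAdeleRing (𝓞 K) K) :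
    (compAt w (unipotent a) : Matrix (Fin 2) (Fin 2) (w.adicCompletion K)) = !![1, a w; 0, 1] := by
  ext i j
  rw [compAt_apply, coe_unipotent]
  fin_cases i <;> fin_cases j <;> simp [coe_apply_one, coe_apply_zero]

theorem compAt_diag2 (w : HeightOneSpectrum (𝓞 K)) (a b : (FiniteAdeleRing (𝓞 K) K)ˣ) :
    (compAt w (diag2 a b) : Matrix (Fin 2) (Fin 2) (w.adicCompletion K))
      = !![(a : FiniteAdeleRing (𝓞 K) K) w, 0; 0, (b : FiniteAdeleRing (𝓞 K) K) w] := by
  ext i j
  rw [compAt_apply, coe_diag2]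
  fin_cases i <;> fin_cases j <;> simp [coe_apply_zero]

theorem uniformiser_ne_zero (hϖ : IsUniformiserAt v ϖ) :
    (ϖ : FiniteAdeleRing (𝓞 K) K) v ≠ 0 := fun h => by
  have := hϖ.1
  rw [h, map_zero] at this
  exact WithZero.exp_ne_zero this.symm

theorem inv_uniformiser_apply (ϖ : (FiniteAdeleRing (𝓞 K) K)ˣ) (w : HeightOneSpectrum (𝓞 K)) :
    ((ϖ⁻¹ : (FiniteAdeleRing (𝓞 K) K)ˣ) : FiniteAdeleRing (𝓞 K) K) w
      = ((ϖ : FiniteAdeleRing (𝓞 K) K) w)⁻¹ := by
  refine eq_inv_of_mul_eq_one_left ?_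
  rw [← coe_apply_mul, Units.inv_mul, coe_apply_one]

theorem valued_uniformiser_sub_one (hϖ : IsUniformiserAt v ϖ) :
    Valued.v ((ϖ : FiniteAdeleRing (𝓞 K) K) v - 1) = 1 := by
  rw [Valuation.map_sub_swap, Valuation.map_one_sub_of_lt _ ?_]
  rw [hϖ.1, ← WithZero.exp_zero, WithZero.exp_lt_exp]; omega

theorem valued_one_entry_le {w : HeightOneSpectrum (𝓞 K)} (i j : Fin 2) :
    Valued.v (((1 : GL (Fin 2) (w.adicCompletion K)) :
      Matrix (Fin 2) (Fin 2) (w.adicCompletion K)) i j) ≤ 1 := by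
  rw [Units.val_one, Matrix.one_apply]
  split <;> simp

theorem compAt_heckeMatrix_of_ne (hϖ : IsUniformiserAt v ϖ) {w : HeightOneSpectrum (𝓞 K)}
    (hw : w ≠ v) : compAt w (heckeMatrix K ϖ) = 1 := by
  refine Units.ext ?_
  rw [heckeMatrix, compAt_diag2, hϖ.2 w hw, Units.val_one, coe_apply_one, ← Matrix.one_fin_two]
  rfl

theorem compAt_nbrMatrix_of_ne (hϖ : IsUniformiserAt v ϖ) {w : HeightOneSpectrum (𝓞 K)}
    (hw : w ≠ v) (o : Option (𝓞 K ⧸ v.asIdeal)) : compAt w (nbrMatrix v ϖ o) = 1 := by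
  refine Units.ext ?_
  rcases o with _ | q
  · rw [nbrMatrix, compAt_diag2, hϖ.2 w hw, Units.val_one, coe_apply_one, ← Matrix.one_fin_two]
    rfl
  · rw [nbrMatrix, heckeMatrix, map_mul, Units.val_mul, compAt_unipotent, compAt_diag2, hϖ.2 w hw,
      localShift_apply_of_ne hϖ _ hw, Units.val_one, coe_apply_one, ← Matrix.one_fin_two, one_mul]
    rfl

theorem algebraMap_int_apply (r : 𝓞 K) (w : HeightOneSpectrum (𝓞 K)) :
    (algebraMap (𝓞 K) (FiniteAdeleRing (𝓞 K) K) r) w
      = algebraMap K (w.adicCompletion K) (algebraMap (𝓞 K) K r) := by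
  rw [IsScalarTower.algebraMap_apply (𝓞 K) K (FiniteAdeleRing (𝓞 K) K),
    FiniteAdeleRing.algebraMap_apply, HeightOneSpectrum.algebraMap_adicCompletion]
  rfl

theorem valued_int_apply (r : 𝓞 K) (w : HeightOneSpectrum (𝓞 K)) :
    Valued.v ((algebraMap (𝓞 K) (FiniteAdeleRing (𝓞 K) K) r) w) = w.intValuation r := by
  rw [algebraMap_int_apply, HeightOneSpectrum.algebraMap_adicCompletion]
  simp only [Function.comp_apply, Algebra.algebraMap_self, RingHom.id_apply,
    HeightOneSpectrum.adicCompletion.valued_coe, HeightOneSpectrum.valuation_of_algebraMap]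

theorem le_exp_neg_one_of_lt_one {a : WithZero (Multiplicative ℤ)} (h : a < 1) :
    a ≤ WithZero.exp (-1 : ℤ) := by
  rcases eq_or_ne a 0 with rfl | ha
  · exact zero_le
  · rw [← WithZero.exp_log ha] at h ⊢
    rw [← WithZero.exp_zero, WithZero.exp_lt_exp] at h
    rw [WithZero.exp_le_exp]; omega

theorem IsIntegralAt.mul {w : HeightOneSpectrum (𝓞 K)} {g h : GL (Fin 2) (w.adicCompletion K)}
    (hg : IsIntegralAt w g) (hh : IsIntegralAt w h) : IsIntegralAt w (g * h) := by
  refine ⟨fun i j => ?_, by rw [Units.val_mul, det_mul, map_mul, hg.2, hh.2, one_mul]⟩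
  rw [Units.val_mul, Matrix.mul_apply, Fin.sum_univ_two]
  refine (Valuation.map_add _ _ _).trans (max_le ?_ ?_) <;>
    (rw [map_mul]; exact mul_le_one' (hg.1 _ _) (hh.1 _ _))

/-- `(n(x) diag(π,1))⁻¹ · u · diag(π,1)` is integral when `π ∣ u₀₁ - x u₁₁`. -/
theorem isIntegralAt_inv_mul_unipotent {π x : v.adicCompletion K}
    (hπv : Valued.v π = WithZero.exp (-1 : ℤ)) (hπ : π ≠ 0) (hx : Valued.v x ≤ 1)
    {n : GL (Fin 2) (v.adicCompletion K)}
    (hn : (n : Matrix (Fin 2) (Fin 2) (v.adicCompletion K)) = !![π, x; 0, 1])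
    (g : GL (Fin 2) (v.adicCompletion K)) {M : Matrix (Fin 2) (Fin 2) (v.adicCompletion K)}
    (hg : (g : Matrix (Fin 2) (Fin 2) (v.adicCompletion K)) = M)
    (hM : ∀ i j, Valued.v (M i j) ≤ 1) (hdet : Valued.v M.det = 1)
    (hxb : Valued.v (M 0 1 - x * M 1 1) ≤ WithZero.exp (-(1 : ℕ) : ℤ))
    {d : GL (Fin 2) (v.adicCompletion K)}
    (hd : (d : Matrix (Fin 2) (Fin 2) (v.adicCompletion K)) = !![π, 0; 0, 1]) :
    IsIntegralAt v (n⁻¹ * (g * d)) := by
  have hcoe : ((n⁻¹ * (g * d) : GL (Fin 2) (v.adicCompletion K)) :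
      Matrix (Fin 2) (Fin 2) (v.adicCompletion K))
      = !![M 0 0 - x * M 1 0, (M 0 1 - x * M 1 1) / π; π * M 1 0, M 1 1] := by
    rw [Units.val_mul, ← Units.inv_mul_cancel_left n
      !![M 0 0 - x * M 1 0, (M 0 1 - x * M 1 1) / π; π * M 1 0, M 1 1]]
    congr 1
    rw [Units.val_mul, hn, hd, hg, Matrix.eta_fin_two M]
    refine Matrix.ext fun i j => ?_
    fin_cases i <;> fin_cases j <;> simp [Matrix.mul_apply, Fin.sum_univ_two] <;> field_simp <;> ring
  constructor
  · intro i j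
    rw [hcoe]
    fin_cases i <;> fin_cases j
    · refine (Valuation.map_sub _ _ _).trans (max_le (hM 0 0) ?_)
      rw [map_mul]; exact mul_le_one' hx (hM 1 0)
    · show Valued.v ((M 0 1 - x * M 1 1) / π) ≤ 1
      rw [map_div₀, hπv]
      exact div_le_one_of_le₀ (by simpa using hxb) zero_le
    · show Valued.v (π * M 1 0) ≤ 1
      rw [map_mul, hπv]
      exact mul_le_one' (by rw [← WithZero.exp_zero, WithZero.exp_le_exp]; omega) (hM 1 0)
    · exact hM 1 1
  · rw [hcoe, det_fin_two_of]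
    have : (M 0 0 - x * M 1 0) * M 1 1 - (M 0 1 - x * M 1 1) / π * (π * M 1 0) = M.det := by
      rw [det_fin_two]; field_simp; ring
    rw [this, hdet]

/-- `diag(1,π)⁻¹ · u · diag(π,1)` is integral when `π ∣ u₁₁`. -/
theorem isIntegralAt_inv_mul_diag {π : v.adicCompletion K}
    (hπv : Valued.v π = WithZero.exp (-1 : ℤ)) (hπ : π ≠ 0)
    {n d : GL (Fin 2) (v.adicCompletion K)}
    (hn : (n : Matrix (Fin 2) (Fin 2) (v.adicCompletion K)) = !![1, 0; 0, π])
    (hd : (d : Matrix (Fin 2) (Fin 2) (v.adicCompletion K)) = !![π, 0; 0, 1])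
    (g : GL (Fin 2) (v.adicCompletion K)) {M : Matrix (Fin 2) (Fin 2) (v.adicCompletion K)}
    (hg : (g : Matrix (Fin 2) (Fin 2) (v.adicCompletion K)) = M)
    (hM : ∀ i j, Valued.v (M i j) ≤ 1) (hdet : Valued.v M.det = 1)
    (h11 : Valued.v (M 1 1) ≤ WithZero.exp (-1 : ℤ)) :
    IsIntegralAt v (n⁻¹ * (g * d)) := by
  have hcoe : ((n⁻¹ * (g * d) : GL (Fin 2) (v.adicCompletion K)) :
      Matrix (Fin 2) (Fin 2) (v.adicCompletion K))
      = !![M 0 0 * π, M 0 1; M 1 0, M 1 1 / π] := by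
    rw [Units.val_mul, ← Units.inv_mul_cancel_left n !![M 0 0 * π, M 0 1; M 1 0, M 1 1 / π]]
    congr 1
    rw [Units.val_mul, hn, hd, hg, Matrix.eta_fin_two M]
    refine Matrix.ext fun i j => ?_
    fin_cases i <;> fin_cases j <;> simp [Matrix.mul_apply, Fin.sum_univ_two] <;> field_simp
  constructor
  · intro i j
    rw [hcoe]
    fin_cases i <;> fin_cases j
    · show Valued.v (M 0 0 * π) ≤ 1
      rw [map_mul, hπv]
      exact mul_le_one' (hM 0 0) (by rw [← WithZero.exp_zero, WithZero.exp_le_exp]; omega)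
    · exact hM 0 1
    · exact hM 1 0
    · show Valued.v (M 1 1 / π) ≤ 1
      rw [map_div₀, hπv]
      exact div_le_one_of_le₀ h11 zero_le
  · rw [hcoe, det_fin_two_of]
    have : M 0 0 * π * (M 1 1 / π) - M 0 1 * M 1 0 = M.det := by
      rw [det_fin_two]; field_simp
    rw [this, hdet]

/-- The lower unipotent. -/
def lowerUnipotent {A : Type*} [CommRing A] (t : A) : GL (Fin 2) A :=
  ⟨!![1, 0; t, 1], !![1, 0; -t, 1], by ext i j; fin_cases i <;> fin_cases j <;> simp,
    by ext i j; fin_cases i <;> fin_cases j <;> simp⟩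

theorem compAt_lowerUnipotent (w : HeightOneSpectrum (𝓞 K)) (a : FiniteAdeleRing (𝓞 K) K) :
    (compAt w (lowerUnipotent a) : Matrix (Fin 2) (Fin 2) (w.adicCompletion K)) = !![1, 0; a w, 1] := by
  refine Matrix.ext fun i j => ?_
  rw [compAt_apply]
  fin_cases i <;> fin_cases j <;> simp [lowerUnipotent, coe_apply_one, coe_apply_zero]

theorem unipotent_localShift_mem (hloc : HasFullLocal U v) (hϖ : IsUniformiserAt v ϖ) (r : 𝓞 K) :
    unipotent (localShift ϖ r) ∈ U ∧ lowerUnipotent (localShift ϖ r) ∈ U := by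
  have hle : ∀ w, Valued.v (localShift ϖ r w) ≤ 1 := fun w => by
    by_cases hw : w = v
    · subst hw; exact valued_localShift_le hϖ _
    · simp [localShift_apply_of_ne hϖ _ hw]
  constructor
  · refine hloc _ (mem_principalLevel_one_iff.mpr fun w => ?_) (fun w hw => Units.ext ?_)
    · refine ⟨fun i j => ?_, ?_⟩ <;> rw [compAt_unipotent]
      · fin_cases i <;> fin_cases j <;> simp [hle]
      · simp [det_fin_two_of]
    · rw [compAt_unipotent, localShift_apply_of_ne hϖ _ hw, ← Matrix.one_fin_two]; rfl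
  · refine hloc _ (mem_principalLevel_one_iff.mpr fun w => ?_) (fun w hw => Units.ext ?_)
    · refine ⟨fun i j => ?_, ?_⟩ <;> rw [compAt_lowerUnipotent]
      · fin_cases i <;> fin_cases j <;> simp [hle]
      · simp [det_fin_two_of]
    · rw [compAt_lowerUnipotent, localShift_apply_of_ne hϖ _ hw, ← Matrix.one_fin_two]; rfl

theorem mk_nbrMatrix_injective (hU : U ≤ principalLevel K (1 : 𝓞 K)) (hϖ : IsUniformiserAt v ϖ) :
    Function.Injective fun o => ((nbrMatrix v ϖ o : GfK K) : Yf U) := by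
  have hπ := uniformiser_ne_zero hϖ
  set π := (ϖ : FiniteAdeleRing (𝓞 K) K) v
  -- the two kinds of neighbours differ
  have key : ∀ q, ((nbrMatrix v ϖ none : GfK K) : Yf U) ≠ ((nbrMatrix v ϖ (some q) : GfK K) : Yf U) := by
    intro q h
    have := sq_entry_le_det hU (QuotientGroup.eq.mp h) v 1 1
    have hinv : (nbrMatrix v ϖ none)⁻¹ = diag2 1 ϖ⁻¹ := inv_eq_of_mul_eq_one_right (by
      ext i j; fin_cases i <;> fin_cases j <;> simp [nbrMatrix, Matrix.mul_apply, Fin.sum_univ_two])
    rw [hinv] at this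
    simp only [nbrMatrix, heckeMatrix, map_mul, Units.val_mul, compAt_unipotent, compAt_diag2,
      inv_uniformiser_apply, Units.val_one, coe_apply_one, Matrix.mul_fin_two, det_fin_two_of,
      Matrix.cons_val_zero, Matrix.cons_val_one, Matrix.of_apply] at this
    simp [hϖ.1, hπ, π, ← WithZero.exp_nsmul, ← WithZero.exp_zero] at this
  rintro (_ | q) (_ | q') h
  · rfl
  · exact absurd h (key q')
  · exact absurd h.symm (key q)
  · congr 1
    have := sq_entry_le_det hU (QuotientGroup.eq.mp h) v 0 1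
    have hinv : (nbrMatrix v ϖ (some q))⁻¹
        = diag2 ϖ⁻¹ 1 * unipotent (-localShift ϖ q.out) := by
      rw [nbrMatrix, heckeMatrix, _root_.mul_inv_rev]
      congr 1 <;>
        (refine inv_eq_of_mul_eq_one_right ?_; ext i j; fin_cases i <;> fin_cases j <;>
          simp [Matrix.mul_apply, Fin.sum_univ_two])
    rw [hinv] at this
    simp only [nbrMatrix, heckeMatrix, map_mul, Units.val_mul, compAt_unipotent, compAt_diag2,
      inv_uniformiser_apply, Units.val_one, coe_apply_one, Matrix.mul_fin_two, det_fin_two_of,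
      Matrix.cons_val_zero, Matrix.cons_val_one, Matrix.of_apply, coe_apply_neg] at this
    simp [hπ, π] at this
    rw [← Ideal.Quotient.mk_out q, ← Ideal.Quotient.mk_out q', Ideal.Quotient.eq]
    have h1 := (pow_le_one_iff two_ne_zero).mp this
    -- `x ↦ localShift ϖ x` is `(π - 1) x` at `v`
    have hsub : (π)⁻¹ * localShift ϖ q'.out v + -((π)⁻¹ * localShift ϖ q.out v)
        = (π)⁻¹ * ((π - 1) * (algebraMap (𝓞 K) (FiniteAdeleRing (𝓞 K) K) (q'.out - q.out)) v) := by
      rw [localShift, localShift, coe_apply_mul, coe_apply_mul, coe_apply_sub, coe_apply_one,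
        map_sub, coe_apply_sub]
      ring
    rw [hsub, map_mul, map_mul, map_inv₀, hϖ.1, valued_int_apply,
      valued_uniformiser_sub_one hϖ, one_mul,
      inv_mul_le_iff₀ (WithZero.zero_lt_coe _), mul_one] at h1
    have h2 := (v.intValuation_le_pow_iff_mem (q'.out - q.out) 1).mp (by simpa using h1)
    rw [pow_one] at h2
    rw [← neg_sub, Ideal.neg_mem_iff]
    exact h2

/-- Every `u ∈ U` gives one of the listed neighbours. -/
theorem exists_nbrMatrix_eq (hU : U ≤ principalLevel K (1 : 𝓞 K)) (hloc : HasFullLocal U v)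
    (hϖ : IsUniformiserAt v ϖ) {u : GfK K} (hu : u ∈ U) :
    (∃ o, ((u * heckeMatrix K ϖ : GfK K) : Yf U) = ((nbrMatrix v ϖ o : GfK K) : Yf U)) ∧
      (Valued.v ((compAt v u : Matrix (Fin 2) (Fin 2) (v.adicCompletion K)) 1 1) ≠ 1 →
        ((u * heckeMatrix K ϖ : GfK K) : Yf U) = ((nbrMatrix v ϖ none : GfK K) : Yf U)) := by
  obtain ⟨hent, hdet⟩ := mem_principalLevel_one_iff.mp (hU hu) v
  have hπ := uniformiser_ne_zero hϖ
  set π := (ϖ : FiniteAdeleRing (𝓞 K) K) v
  have hπv : Valued.v π = WithZero.exp (-1 : ℤ) := hϖ.1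
  set M := (compAt v u : Matrix (Fin 2) (Fin 2) (v.adicCompletion K))
  -- it is enough that the quotient lies in `U`
  have finish : ∀ o, IsIntegralAt v (compAt v ((nbrMatrix v ϖ o)⁻¹ * (u * heckeMatrix K ϖ) * u⁻¹)) →
      (∀ w ≠ v, compAt w (nbrMatrix v ϖ o) = 1) →
      ((u * heckeMatrix K ϖ : GfK K) : Yf U) = ((nbrMatrix v ϖ o : GfK K) : Yf U) := by
    intro o hint hone
    refine (QuotientGroup.eq.mpr (le_levelZ U ?_)).symm
    have haway : ∀ w ≠ v, compAt w ((nbrMatrix v ϖ o)⁻¹ * (u * heckeMatrix K ϖ) * u⁻¹) = 1 := by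
      intro w hw
      simp only [map_mul, map_inv, hone w hw, compAt_heckeMatrix_of_ne hϖ hw, inv_one, one_mul,
        mul_one, mul_inv_cancel]
    have hl : (nbrMatrix v ϖ o)⁻¹ * (u * heckeMatrix K ϖ) * u⁻¹ ∈ U := by
      refine hloc _ (mem_principalLevel_one_iff.mpr fun w => ?_) haway
      by_cases hw : w = v
      · subst hw; exact hint
      · rw [haway w hw]
        exact IsIntegralAt.of_both (fun i j => valued_one_entry_le i j)
          (fun i j => by rw [inv_one]; exact valued_one_entry_le i j)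
    simpa using mul_mem hl hu
  have huinv : IsIntegralAt v (compAt v u⁻¹) := mem_principalLevel_one_iff.mp (inv_mem (hU hu)) v
  -- integrality of the quotient from that of `nbr⁻¹ u diag(π,1)`
  have finish' : ∀ o, IsIntegralAt v (compAt v ((nbrMatrix v ϖ o)⁻¹ * (u * heckeMatrix K ϖ))) →
      (∀ w ≠ v, compAt w (nbrMatrix v ϖ o) = 1) →
      ((u * heckeMatrix K ϖ : GfK K) : Yf U) = ((nbrMatrix v ϖ o : GfK K) : Yf U) :=
    fun o h h' => finish o (by rw [map_mul]; exact h.mul huinv) h'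
  have hnone : Valued.v (M 1 1) ≠ 1 →
      ((u * heckeMatrix K ϖ : GfK K) : Yf U) = ((nbrMatrix v ϖ none : GfK K) : Yf U) := by
    intro hd
    have hd' : Valued.v (M 1 1) ≤ WithZero.exp (-1 : ℤ) :=
      le_exp_neg_one_of_lt_one ((hent 1 1).lt_of_ne hd)
    refine finish' none ?_ (fun w hw => compAt_nbrMatrix_of_ne hϖ hw _)
    have hn : (compAt v (nbrMatrix v ϖ none) : Matrix (Fin 2) (Fin 2) (v.adicCompletion K))
        = !![1, 0; 0, π] := by
      rw [nbrMatrix, compAt_diag2, Units.val_one, coe_apply_one]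
    have hd2 : (compAt v (heckeMatrix K ϖ) : Matrix (Fin 2) (Fin 2) (v.adicCompletion K))
        = !![π, 0; 0, 1] := by
      rw [heckeMatrix, compAt_diag2, Units.val_one, coe_apply_one]
    have key := isIntegralAt_inv_mul_diag hπv hπ hn hd2 (compAt v u) (M := M) rfl hent hdet hd'
    rw [map_mul, map_inv, map_mul]
    exact key
  refine ⟨?_, hnone⟩
  by_cases hd : Valued.v (M 1 1) = 1
  · have hd0 : M 1 1 ≠ 0 := fun h => by simp [h] at hd
    obtain ⟨r, hr⟩ := exists_int_sub_le (K := K) v (x := -(M 0 1) / (M 1 1))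
      (by rw [map_div₀, Valuation.map_neg, hd, div_one]; exact hent 0 1) 1
    set q : 𝓞 K ⧸ v.asIdeal := Ideal.Quotient.mk _ r
    set x := localShift ϖ q.out v with hx
    refine ⟨some q, finish' (some q) ?_ (fun w hw => compAt_nbrMatrix_of_ne hϖ hw _)⟩
    -- (fun w hw => compAt_nbrMatrix_of_ne hϖ hw _)
    have hq : q.out - r ∈ v.asIdeal := Ideal.Quotient.eq.mp (Ideal.Quotient.mk_out q)
    have hxb : Valued.v (M 0 1 - x * M 1 1) ≤ WithZero.exp (-(1 : ℕ) : ℤ) := by
      have e : M 0 1 - x * M 1 1 = -(M 1 1) * ((-(M 0 1) / M 1 1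
            - algebraMap K (v.adicCompletion K) (algebraMap (𝓞 K) K r))
          - algebraMap K (v.adicCompletion K) (algebraMap (𝓞 K) K (q.out - r))
          + π * algebraMap K (v.adicCompletion K) (algebraMap (𝓞 K) K q.out)) := by
        rw [hx, localShift, coe_apply_mul, coe_apply_sub, coe_apply_one, algebraMap_int_apply,
          map_sub, map_sub]
        field_simp
        ring
      rw [e, map_mul, Valuation.map_neg, hd, one_mul]
      refine (Valuation.map_add _ _ _).trans (max_le ((Valuation.map_sub _ _ _).trans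
        (max_le hr ?_)) ?_)
      · rw [← algebraMap_int_apply, valued_int_apply, HeightOneSpectrum.intValuation_le_pow_iff_mem, pow_one]
        exact hq
      · rw [map_mul, hπv]
        refine mul_le_of_le_one_right' ?_
        rw [← algebraMap_int_apply]; exact mem_intAdele.mp (algebraMap_mem_intAdele _) v
    have hx1 : Valued.v x ≤ 1 := valued_localShift_le hϖ _
    have hn : (compAt v (nbrMatrix v ϖ (some q)) : Matrix (Fin 2) (Fin 2) (v.adicCompletion K))
        = !![π, x; 0, 1] := by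
      rw [nbrMatrix, heckeMatrix, map_mul, Units.val_mul, compAt_unipotent, compAt_diag2,
        Matrix.mul_fin_two, Units.val_one, coe_apply_one]
      simp [π, x]
    have hd2 : (compAt v (heckeMatrix K ϖ) : Matrix (Fin 2) (Fin 2) (v.adicCompletion K))
        = !![π, 0; 0, 1] := by
      rw [heckeMatrix, compAt_diag2, Units.val_one, coe_apply_one]
    have key := isIntegralAt_inv_mul_unipotent hπv hπ hx1 hn (compAt v u) (M := M) rfl hent hdet hxb hd2
    rw [map_mul, map_inv, map_mul]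
    exact key
  · exact ⟨none, hnone hd⟩

/-- Each listed matrix is a neighbour. -/
theorem exists_mem_eq_nbrMatrix (hU : U ≤ principalLevel K (1 : 𝓞 K)) (hloc : HasFullLocal U v)
    (hϖ : IsUniformiserAt v ϖ) (o : Option (𝓞 K ⧸ v.asIdeal)) :
    ∃ u ∈ U, ((u * heckeMatrix K ϖ : GfK K) : Yf U) = ((nbrMatrix v ϖ o : GfK K) : Yf U) := by
  rcases o with _ | q
  · have hmem : lowerUnipotent (localShift ϖ (-1)) * unipotent (localShift ϖ 1) ∈ U :=
      mul_mem (unipotent_localShift_mem hloc hϖ _).2 (unipotent_localShift_mem hloc hϖ _).1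
    refine ⟨_, hmem, (exists_nbrMatrix_eq hU hloc hϖ hmem).2 ?_⟩
    rw [map_mul, Units.val_mul, compAt_lowerUnipotent, compAt_unipotent, Matrix.mul_fin_two]
    simp only [localShift, map_neg, map_one, coe_apply_mul, coe_apply_sub, coe_apply_one,
      coe_apply_neg, Matrix.of_apply, Matrix.cons_val_one, Matrix.cons_val_zero]
    set π := (ϖ : FiniteAdeleRing (𝓞 K) K) v
    have hπv : Valued.v π = WithZero.exp (-1 : ℤ) := hϖ.1
    have e : (π - 1) * -1 * ((π - 1) * 1) + 1 * 1 = π * (2 - π) := by ring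
    rw [e, map_mul, hπv]
    refine ne_of_lt (lt_of_le_of_lt (mul_le_of_le_one_right' ?_) ?_)
    · refine (Valuation.map_sub _ _ _).trans (max_le ?_ ?_)
      · rw [show (2 : v.adicCompletion K) = 1 + 1 by norm_num]
        exact (Valuation.map_add _ _ _).trans (by simp)
      · rw [hπv, ← WithZero.exp_zero, WithZero.exp_le_exp]; omega
    · rw [← WithZero.exp_zero, WithZero.exp_lt_exp]; omega
  · exact ⟨unipotent (localShift ϖ q.out), (unipotent_localShift_mem hloc hϖ _).1, rfl⟩

/-- The neighbours of `g` are exactly `g` times the listed matrices. -/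
theorem nbrs_eq_range (hU : U ≤ principalLevel K (1 : 𝓞 K)) (hloc : HasFullLocal U v)
    (hϖ : IsUniformiserAt v ϖ) (g : GfK K) :
    nbrs (heckeMatrix K ϖ) ((g : GfK K) : Yf U)
      = Set.range fun o => ((g * nbrMatrix v ϖ o : GfK K) : Yf U) := by
  rw [nbrs_mk]
  ext y
  constructor
  · rintro ⟨u, hu, rfl⟩
    obtain ⟨o, ho⟩ := (exists_nbrMatrix_eq hU hloc hϖ hu).1
    refine ⟨o, ?_⟩
    have := congrArg (g • ·) ho.symm
    simpa [mul_assoc] using! this
  · rintro ⟨o, rfl⟩
    obtain ⟨u, hu, he⟩ := exists_mem_eq_nbrMatrix hU hloc hϖ o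
    refine ⟨u, hu, ?_⟩
    have := congrArg (g • ·) he
    simpa [mul_assoc] using! this

/-- The Hecke operator as a sum of `q + 1` terms. -/
theorem heckeOp_eq_sum {ι : Type*} {Φ : Frame K ι} [Fintype (𝓞 K ⧸ v.asIdeal)]
    (hU : U ≤ principalLevel K (1 : 𝓞 K)) (hloc : HasFullLocal U v)
    (hϖ : IsUniformiserAt v ϖ) (φ : Space Φ U → ℂ) (τ : ι → HSpace) (g : GfK K) :
    heckeOp (heckeMatrix K ϖ) φ (Space.mk τ ((g : GfK K) : Yf U))
      = φ (Space.mk τ ((g * diag2 1 ϖ : GfK K) : Yf U))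
        + ∑ q : 𝓞 K ⧸ v.asIdeal, φ (Space.mk τ
            ((g * (unipotent (localShift ϖ q.out) * heckeMatrix K ϖ) : GfK K) : Yf U)) := by
  have hinj : Function.Injective fun o => ((g * nbrMatrix v ϖ o : GfK K) : Yf U) := fun a b h => by
    refine mk_nbrMatrix_injective hU hϖ ?_
    have := congrArg (g⁻¹ • ·) h
    simpa [← mul_assoc] using! this
  rw [heckeOp_mk, nbrs_eq_range hU hloc hϖ, finsum_mem_range hinj, finsum_eq_sum_of_fintype,
    Fintype.sum_option]
  rfl

end NumberField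

end Fermat.Agent.LT.RankinSelberg
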