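/-
The squared trace of the octahedral lift on `SL₂(𝔽₃)` as a rational class function.
-/
import Fermat.Agent.LT.C4.Lift
import Fermat.Agent.LT.Data.Galois
import Fermat.Agent.LT.Density.Level
import Mathlib.GroupTheory.Subgroup.Center

set_option autoImplicit false
set_option maxRecDepth 4000

noncomputable section

namespace Fermat.Agent.LT.RankinSelberg

open Matrix Fermat.Agent.LT
open scoped Classical

/-- The weight of a matrix with given entries: `4` at scalars, `0` on the rest of the quaternion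
subgroup, `1` elsewhere. -/
def weightEntries (a b c d : ZMod 3) : ℤ :=
  1 + 4 * (if b = 0 ∧ c = 0 ∧ a = d then 1 else 0) - (if InQuat a b c d then 1 else 0)

theorem inQuat_conj : ∀ a b c d : ZMod 3, InQuat a b c d → ∀ p q r s : ZMod 3,
    p * s - q * r ≠ 0 →
    InQuat ((p * s - q * r) * ((p * a + q * c) * s - (p * b + q * d) * r))
      ((p * s - q * r) * ((p * b + q * d) * p - (p * a + q * c) * q))
      ((p * s - q * r) * ((r * a + s * c) * s - (r * b + s * d) * r))
      ((p * s - q * r) * ((r * b + s * d) * p - (r * a + s * c) * q)) := by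
  decide +kernel

theorem inv_entries (g : GL (Fin 2) (ZMod 3)) :
    g⁻¹ 0 0 = (g 0 0 * g 1 1 - g 0 1 * g 1 0) * g 1 1 ∧
    g⁻¹ 0 1 = -((g 0 0 * g 1 1 - g 0 1 * g 1 0) * g 0 1) ∧
    g⁻¹ 1 0 = -((g 0 0 * g 1 1 - g 0 1 * g 1 0) * g 1 0) ∧
    g⁻¹ 1 1 = (g 0 0 * g 1 1 - g 0 1 * g 1 0) * g 0 0 := by
  have hself : ∀ x : ZMod 3, x ≠ 0 → x * x = 1 := by decide
  set D := g 0 0 * g 1 1 - g 0 1 * g 1 0 with hD
  have hD2 : D * D = 1 := hself D (det_entries_ne_zero g)
  have h : ((g⁻¹ : GL (Fin 2) (ZMod 3)) : Matrix (Fin 2) (Fin 2) (ZMod 3)) =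
      !![D * g 1 1, -(D * g 0 1); -(D * g 1 0), D * g 0 0] := by
    rw [Matrix.coe_units_inv]
    refine Matrix.inv_eq_right_inv ?_
    rw [Matrix.eta_fin_two (g : Matrix (Fin 2) (Fin 2) (ZMod 3)), Matrix.mul_fin_two,
      Matrix.one_fin_two]
    refine Matrix.ext fun i j => ?_
    fin_cases i <;> fin_cases j <;>
      simp only [Matrix.of_apply, Matrix.cons_val', Matrix.cons_val_zero, Matrix.cons_val_one,
        Matrix.empty_val', Matrix.cons_val_fin_one, Fin.zero_eta, Fin.mk_one, Fin.isValue]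
    · linear_combination hD2 - D * hD
    · ring
    · ring
    · linear_combination hD2 - D * hD
  exact ⟨congrFun (congrFun h 0) 0, congrFun (congrFun h 0) 1, congrFun (congrFun h 1) 0,
    congrFun (congrFun h 1) 1⟩

theorem normal_quatSubgroup : quatSubgroup.Normal := by
  refine ⟨fun n hn g => ?_⟩
  rw [mem_quatSubgroup] at hn ⊢
  obtain ⟨h00, h01, h10, h11⟩ := inv_entries g
  have h := inQuat_conj _ _ _ _ hn (g 0 0) (g 0 1) (g 1 0) (g 1 1) (det_entries_ne_zero g)
  simp only [Units.val_mul, Matrix.mul_apply, Fin.sum_univ_two]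
  rw [h00, h01, h10, h11]
  convert h using 1 <;> ring

theorem mem_center_iff_entries (g : GL (Fin 2) (ZMod 3)) :
    g ∈ Subgroup.center (GL (Fin 2) (ZMod 3)) ↔ g 0 1 = 0 ∧ g 1 0 = 0 ∧ g 0 0 = g 1 1 := by
  rw [Subgroup.mem_center_iff]
  constructor
  · intro h
    let u : GL (Fin 2) (ZMod 3) := ⟨!![1, 1; 0, 1], !![1, -1; 0, 1],
      by simp [Matrix.one_fin_two], by simp [Matrix.one_fin_two]⟩
    let l : GL (Fin 2) (ZMod 3) := ⟨!![1, 0; 1, 1], !![1, 0; -1, 1],
      by simp [Matrix.one_fin_two], by simp [Matrix.one_fin_two]⟩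
    have hu := congrArg (fun x : GL (Fin 2) (ZMod 3) => x.1) (h u)
    have hl := congrArg (fun x : GL (Fin 2) (ZMod 3) => x.1) (h l)
    have e1 := congrFun (congrFun hu 0) 0
    have e2 := congrFun (congrFun hu 0) 1
    have e3 := congrFun (congrFun hl 0) 0
    simp [u, l, Units.val_mul, Matrix.mul_apply, Fin.sum_univ_two] at e1 e2 e3
    exact ⟨e3, e1, by linear_combination -e2⟩
  · rintro ⟨h1, h2, h3⟩ x
    refine Units.ext (Matrix.ext fun i j => ?_)
    fin_cases i <;> fin_cases j <;>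
      simp [Units.val_mul, Matrix.mul_apply, Fin.sum_univ_two, h1, h2, h3] <;> ring

/-- The weight: `|tr octRep|²` on `SL₂(𝔽₃)`. -/
def octWeight (g : GL (Fin 2) (ZMod 3)) : ℝ :=
  1 + 4 * (if g ∈ Subgroup.center (GL (Fin 2) (ZMod 3)) then (1 : ℝ) else 0) +
    (-1) * (if g ∈ quatSubgroup then (1 : ℝ) else 0)

theorem isRationalClassFun_octWeight : Density.IsRationalClassFun octWeight := by
  have := normal_quatSubgroup
  have hconj : ∀ (N : Subgroup (GL (Fin 2) (ZMod 3))) [N.Normal] (x y : GL (Fin 2) (ZMod 3)),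
      (y * x * y⁻¹ ∈ N ↔ x ∈ N) := fun N hN x y =>
    ⟨fun h => by simpa [mul_assoc] using hN.conj_mem _ h y⁻¹, fun h => hN.conj_mem x h y⟩
  refine ⟨fun x y => ?_, fun x y h => ?_⟩
  · simp only [octWeight, hconj]
  · simp only [octWeight, ← Subgroup.zpowers_le, h]

theorem octWeight_eq (g : GL (Fin 2) (ZMod 3)) :
    octWeight g = (weightEntries (g 0 0) (g 0 1) (g 1 0) (g 1 1) : ℤ) := by
  rw [octWeight, weightEntries]
  simp only [mem_center_iff_entries, mem_quatSubgroup]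
  split_ifs <;> simp <;> norm_num

theorem liftQuad_trace_sq : ∀ a b c d : ZMod 3, a * d - b * c = 1 →
    ((liftQuad a b c d).e00 + (liftQuad a b c d).e11).im = 0 ∧
    ((liftQuad a b c d).e00 + (liftQuad a b c d).e11).re ^ 2 = weightEntries a b c d := by
  decide +kernel

/-- On `SL₂(𝔽₃)` the trace of the octahedral lift is an integer whose square is the weight. -/
theorem exists_int_trace_octRep {g : GL (Fin 2) (ZMod 3)}
    (hg : Matrix.GeneralLinearGroup.det g = 1) :
    ∃ n : ℤ, (octRep g : Matrix (Fin 2) (Fin 2) ℂ).trace = n ∧ ((n : ℝ)) ^ 2 = octWeight g := by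
  have hdet : g 0 0 * g 1 1 - g 0 1 * g 1 0 = 1 := by
    have := congrArg Units.val hg
    rwa [Matrix.GeneralLinearGroup.val_det_apply, Units.val_one, Matrix.det_fin_two] at this
  obtain ⟨him, hre⟩ := liftQuad_trace_sq _ _ _ _ hdet
  refine ⟨((liftQuad (g 0 0) (g 0 1) (g 1 0) (g 1 1)).e00 +
    (liftQuad (g 0 0) (g 0 1) (g 1 0) (g 1 1)).e11).re, ?_, ?_⟩
  · rw [C4.trace_octRep, Matrix.trace_fin_two]
    show sqrtNegTwoC ((liftQuad (g 0 0) (g 0 1) (g 1 0) (g 1 1)).e00 +
      (liftQuad (g 0 0) (g 0 1) (g 1 0) (g 1 1)).e11) = _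
    simp [sqrtNegTwoC, Zsqrtd.lift, him]
  · rw [octWeight_eq, ← hre]; push_cast; ring

theorem octWeight_eq_one {g : GL (Fin 2) (ZMod 3)} (hg : g ∉ quatSubgroup)
    (hdet : Matrix.GeneralLinearGroup.det g = 1) : octWeight g = 1 := by
  have hc : g ∉ Subgroup.center (GL (Fin 2) (ZMod 3)) := by
    intro h
    obtain ⟨h1, h2, h3⟩ := (mem_center_iff_entries g).1 h
    refine hg (mem_quatSubgroup.2 ⟨?_, Or.inr ⟨h1, h2, h3⟩⟩)
    have := congrArg Units.val hdet
    rwa [Matrix.GeneralLinearGroup.val_det_apply, Units.val_one, Matrix.det_fin_two] at this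
  simp [octWeight, hg, hc]

theorem sum_weightEntries_detOne :
    (∑ q ∈ (Finset.univ : Finset (ZMod 3 × ZMod 3 × ZMod 3 × ZMod 3)).filter
        (fun q => q.1 * q.2.2.2 - q.2.1 * q.2.2.1 = 1),
      weightEntries q.1 q.2.1 q.2.2.1 q.2.2.2) = 24 ∧
    ((Finset.univ : Finset (ZMod 3 × ZMod 3 × ZMod 3 × ZMod 3)).filter
        (fun q => q.1 * q.2.2.2 - q.2.1 * q.2.2.1 = 1)).card = 24 := by
  decide +kernel

/-- The mean of the weight over `SL₂(𝔽₃)` is one. -/
theorem mean_octWeight :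
    (∑ x : GL (Fin 2) (ZMod 3),
        if x ∈ Matrix.GeneralLinearGroup.det.ker then octWeight x else 0) /
      Nat.card (Matrix.GeneralLinearGroup.det : GL (Fin 2) (ZMod 3) →* (ZMod 3)ˣ).ker = 1 := by
  set Q := (Finset.univ : Finset (ZMod 3 × ZMod 3 × ZMod 3 × ZMod 3)).filter
    (fun q => q.1 * q.2.2.2 - q.2.1 * q.2.2.1 = 1)
  have key : ∀ F : ZMod 3 → ZMod 3 → ZMod 3 → ZMod 3 → ℝ,
      (∑ x : GL (Fin 2) (ZMod 3), if x ∈ Matrix.GeneralLinearGroup.det.ker then
        F (x 0 0) (x 0 1) (x 1 0) (x 1 1) else 0) = ∑ q ∈ Q, F q.1 q.2.1 q.2.2.1 q.2.2.2 := by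
    intro F
    rw [← Finset.sum_filter]
    refine Finset.sum_bij' (fun x _ => (x 0 0, x 0 1, x 1 0, x 1 1))
      (fun q hq => Matrix.GeneralLinearGroup.mkOfDetNeZero !![q.1, q.2.1; q.2.2.1, q.2.2.2]
        (by rw [Matrix.det_fin_two_of, (Finset.mem_filter.1 hq).2]; exact one_ne_zero))
      ?_ ?_ ?_ ?_ ?_
    · intro x hx
      have := congrArg Units.val (MonoidHom.mem_ker.1 (Finset.mem_filter.1 hx).2)
      rw [Matrix.GeneralLinearGroup.val_det_apply, Units.val_one, Matrix.det_fin_two] at this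
      exact Finset.mem_filter.2 ⟨Finset.mem_univ _, this⟩
    · intro q hq
      refine Finset.mem_filter.2 ⟨Finset.mem_univ _, MonoidHom.mem_ker.2 (Units.ext ?_)⟩
      rw [Matrix.GeneralLinearGroup.val_det_apply, Units.val_one]
      show Matrix.det !![q.1, q.2.1; q.2.2.1, q.2.2.2] = 1
      rw [Matrix.det_fin_two_of, (Finset.mem_filter.1 hq).2]
    · intro x _
      exact Units.ext (Matrix.eta_fin_two _).symm
    · intro q _; rfl
    · intro x _; rfl
  have h1 := key fun a b c d => (weightEntries a b c d : ℤ)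
  have h2 := key fun _ _ _ _ => 1
  simp only [← octWeight_eq] at h1
  rw [h1, Nat.card_eq_fintype_card, Fintype.card_subtype]
  rw [Finset.sum_boole, Finset.sum_const, nsmul_eq_mul, mul_one] at h2
  obtain ⟨hs, hn⟩ := sum_weightEntries_detOne
  rw [h2, hn, ← Int.cast_sum, hs]
  norm_num

end Fermat.Agent.LT.RankinSelberg
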