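/-
Hecke's elementary second moment: `∑_{N ≤ X} |b|² ≪ X` gives `∑_v |a_v|² Nv ^ (-s) ≤ log (1/(s-1)) + C`
and the pinning lemma.  Everything here is abstract.
-/
import Mathlib

set_option autoImplicit false

noncomputable section

namespace Fermat.Agent.LT.RankinSelberg

open Finset Real

theorem two_rpow_neg_sub_le {s : ℝ} (h1 : 1 ≤ s) (h2 : s ≤ 2) :
    (2 : ℝ) ^ (-(s - 1)) ≤ 1 - (s - 1) / 2 := by
  have hc := convexOn_exp.2 (Set.mem_univ (0 : ℝ)) (Set.mem_univ (-Real.log 2))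
    (show (0 : ℝ) ≤ 2 - s by linarith) (show (0 : ℝ) ≤ s - 1 by linarith) (by ring)
  simp only [smul_eq_mul, mul_zero, zero_add, Real.exp_zero, mul_one] at hc
  rw [Real.exp_neg, Real.exp_log two_pos] at hc
  rw [Real.rpow_def_of_pos two_pos, show Real.log 2 * -(s - 1) = (s - 1) * -Real.log 2 by ring]
  linarith

/-- A linear bound on partial sums gives a bound `≪ 1 / (s - 1)` on the Dirichlet series. -/
theorem sum_rpow_le_of_count {ι : Type*} (I : Finset ι) (N : ι → ℕ) (w : ι → ℝ) {C : ℝ}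
    (hC : 0 ≤ C) (hN : ∀ i ∈ I, 1 ≤ N i) (hw : ∀ i ∈ I, 0 ≤ w i)
    (hcount : ∀ X : ℕ, 1 ≤ X → ∑ i ∈ I.filter (fun i => N i ≤ X), w i ≤ C * X)
    {s : ℝ} (h1 : 1 < s) (h2 : s ≤ 2) :
    ∑ i ∈ I, w i * (N i : ℝ) ^ (-s) ≤ 4 * C / (s - 1) := by
  classical
  set k : ι → ℕ := fun i => Nat.log 2 (N i) with hk
  set L := I.sup k + 1 with hL
  have hmaps : ∀ i ∈ I, k i ∈ Finset.range L := fun i hi =>
    Finset.mem_range.mpr (Nat.lt_succ_of_le (Finset.le_sup hi))
  rw [← Finset.sum_fiberwise_of_maps_to hmaps]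
  set q : ℝ := (2 : ℝ) ^ (-(s - 1)) with hq
  have hq0 : 0 < q := by positivity
  have hq1 : q ≤ 1 - (s - 1) / 2 := two_rpow_neg_sub_le h1.le h2
  have hblock : ∀ j ∈ Finset.range L,
      ∑ i ∈ I.filter (fun i => k i = j), w i * (N i : ℝ) ^ (-s) ≤ 2 * C * q ^ j := by
    intro j _
    have hlow : ∀ i ∈ I.filter (fun i => k i = j), (2 : ℝ) ^ j ≤ N i ∧ N i ≤ 2 ^ (j + 1) := by
      intro i hi
      obtain ⟨hiI, rfl⟩ := Finset.mem_filter.mp hi
      exact ⟨by exact_mod_cast Nat.pow_log_le_self 2 (by have := hN i hiI; omega),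
        (Nat.lt_pow_succ_log_self one_lt_two _).le⟩
    calc ∑ i ∈ I.filter (fun i => k i = j), w i * (N i : ℝ) ^ (-s)
        ≤ ∑ i ∈ I.filter (fun i => k i = j), w i * ((2 : ℝ) ^ j) ^ (-s) := by
          refine Finset.sum_le_sum fun i hi => ?_
          exact mul_le_mul_of_nonneg_left
            (Real.rpow_le_rpow_of_nonpos (by positivity) (hlow i hi).1 (by linarith))
            (hw i (Finset.mem_filter.mp hi).1)
      _ = (∑ i ∈ I.filter (fun i => k i = j), w i) * ((2 : ℝ) ^ j) ^ (-s) := by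
          rw [Finset.sum_mul]
      _ ≤ (C * ((2 ^ (j + 1) : ℕ) : ℝ)) * ((2 : ℝ) ^ j) ^ (-s) := by
          refine mul_le_mul_of_nonneg_right (le_trans ?_ (hcount _ Nat.one_le_two_pow))
            (by positivity)
          refine Finset.sum_le_sum_of_subset_of_nonneg ?_ fun i hi _ =>
            hw i (Finset.mem_filter.mp hi).1
          intro i hi
          exact Finset.mem_filter.mpr ⟨(Finset.mem_filter.mp hi).1, (hlow i hi).2⟩
      _ = 2 * C * q ^ j := by
          push_cast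
          have : ((2 : ℝ) ^ j) ^ (-s) * 2 ^ j = q ^ j := by
            rw [hq, ← Real.rpow_natCast 2 j, ← Real.rpow_mul two_pos.le, ← Real.rpow_add two_pos,
              ← Real.rpow_natCast ((2 : ℝ) ^ (-(s - 1))) j, ← Real.rpow_mul two_pos.le]
            ring_nf
          rw [pow_succ]
          linear_combination (2 * C) * this
  refine (Finset.sum_le_sum hblock).trans ?_
  rw [← Finset.mul_sum, show 4 * C / (s - 1) = 2 * C * (2 / (s - 1)) by ring]
  refine mul_le_mul_of_nonneg_left ?_ (by positivity)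
  have hg : (∑ j ∈ Finset.range L, q ^ j) * (1 - q) = 1 - q ^ L := geom_sum_mul_neg q L
  rw [le_div_iff₀ (by linarith)]
  have h0 : 0 ≤ ∑ j ∈ Finset.range L, q ^ j := by positivity
  nlinarith [pow_nonneg hq0.le L]

/-- Hypothesis produced by a bounded eigenform: partial sums over squarefree products of good
primes grow at most linearly. -/
def SquarefreeMomentBound {ι : Type*} (N : ι → ℕ) (x : ι → ℝ) (C : ℝ) : Prop :=
  ∀ (𝒯 : Finset (Finset ι)) (X : ℕ), 1 ≤ X → (∀ T ∈ 𝒯, ∏ i ∈ T, N i ≤ X) →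
    ∑ T ∈ 𝒯, ∏ i ∈ T, x i ≤ C * X

variable {ι : Type*} {N : ι → ℕ} {x : ι → ℝ} {C : ℝ}

theorem SquarefreeMomentBound.one_le (h : SquarefreeMomentBound N x C) : 1 ≤ C := by
  simpa using h {∅} 1 le_rfl (by simp)

theorem prod_one_add_le (h : SquarefreeMomentBound N x C) (hN : ∀ i, 1 ≤ N i) (hx : ∀ i, 0 ≤ x i)
    (T : Finset ι) {s : ℝ} (h1 : 1 < s) (h2 : s ≤ 2) :
    ∏ i ∈ T, (1 + x i * (N i : ℝ) ^ (-s)) ≤ 4 * C / (s - 1) := by
  classical
  rw [Finset.prod_one_add]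
  refine le_trans (le_of_eq ?_) (sum_rpow_le_of_count T.powerset (fun U => ∏ i ∈ U, N i)
    (fun U => ∏ i ∈ U, x i) (le_trans zero_le_one h.one_le)
    (fun U _ => Finset.one_le_prod' fun i _ => hN i)
    (fun U _ => Finset.prod_nonneg fun i _ => hx i) (fun X hX => h _ X hX ?_) h1 h2)
  · refine Finset.sum_congr rfl fun U _ => ?_
    rw [Finset.prod_mul_distrib, Nat.cast_prod,
      ← Real.finsetProd_rpow _ _ fun i _ => Nat.cast_nonneg (N i)]
  · intro U hU; exact (Finset.mem_filter.mp hU).2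

/-- `∑_v x_v Nv ^ (-s) ≤ log (1 / (s - 1)) + O(1)` from the moment bound. -/
theorem sum_mul_rpow_le_log (h : SquarefreeMomentBound N x C) (hN : ∀ i, 1 ≤ N i)
    (hx : ∀ i, 0 ≤ x i) {B D : ℝ} (hB : ∀ i, x i ≤ B)
    (hD : ∀ T : Finset ι, ∑ i ∈ T, ((N i : ℝ) ^ 2)⁻¹ ≤ D)
    (T : Finset ι) {s : ℝ} (h1 : 1 < s) (h2 : s ≤ 2) :
    ∑ i ∈ T, x i * (N i : ℝ) ^ (-s) ≤ -Real.log (s - 1) + (Real.log (4 * C) + B ^ 2 * D) := by
  have hC : 1 ≤ C := h.one_le
  have hy : ∀ i, 0 ≤ x i * (N i : ℝ) ^ (-s) := fun i =>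
    mul_nonneg (hx i) (Real.rpow_nonneg (Nat.cast_nonneg _) _)
  have hlog : ∑ i ∈ T, Real.log (1 + x i * (N i : ℝ) ^ (-s)) ≤
      Real.log (4 * C) - Real.log (s - 1) := by
    rw [← Real.log_prod (fun i _ => (by have := hy i; positivity)),
      ← Real.log_div (by positivity) (by linarith)]
    exact Real.log_le_log (Finset.prod_pos fun i _ => by have := hy i; linarith)
      (prod_one_add_le h hN hx T h1 h2)
  have hterm : ∀ i, x i * (N i : ℝ) ^ (-s) ≤
      Real.log (1 + x i * (N i : ℝ) ^ (-s)) + B ^ 2 * ((N i : ℝ) ^ 2)⁻¹ := by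
    intro i
    set y := x i * (N i : ℝ) ^ (-s)
    have hy' : 0 ≤ y := hy i
    have := Real.one_sub_inv_le_log_of_pos (x := 1 + y) (by linarith)
    have h3 : y - y ^ 2 ≤ 1 - (1 + y)⁻¹ := by
      rw [show 1 - (1 + y)⁻¹ = y / (1 + y) by field_simp; ring, le_div_iff₀ (by linarith)]
      nlinarith [mul_nonneg hy' (sq_nonneg y)]
    have hN1 : (1 : ℝ) ≤ N i := by exact_mod_cast hN i
    have hle : y ≤ B * (N i : ℝ)⁻¹ := by
      refine mul_le_mul (hB i) ?_ (Real.rpow_nonneg (Nat.cast_nonneg _) _) ((hx i).trans (hB i))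
      rw [← Real.rpow_neg_one]
      exact Real.rpow_le_rpow_of_exponent_le hN1 (by linarith)
    have h4 : y ^ 2 ≤ B ^ 2 * ((N i : ℝ) ^ 2)⁻¹ := by
      calc y ^ 2 ≤ (B * (N i : ℝ)⁻¹) ^ 2 := pow_le_pow_left₀ hy' hle 2
        _ = _ := by ring
    linarith
  calc ∑ i ∈ T, x i * (N i : ℝ) ^ (-s)
      ≤ ∑ i ∈ T, (Real.log (1 + x i * (N i : ℝ) ^ (-s)) + B ^ 2 * ((N i : ℝ) ^ 2)⁻¹) :=
        Finset.sum_le_sum fun i _ => hterm i
    _ ≤ (Real.log (4 * C) - Real.log (s - 1)) + B ^ 2 * D := by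
        rw [Finset.sum_add_distrib, ← Finset.mul_sum]
        exact add_le_add hlog (mul_le_mul_of_nonneg_left (hD T) (sq_nonneg B))
    _ = _ := by ring

/-- **Pinning.** If `y ≤ x`, the `y`-series is at least `log (1/(s-1)) - B`, and the `x`-series is
at most `log (1/(s-1)) + C`, then the indices with `x ≥ y + δ` have summable `1 / N`. -/
theorem summable_inv_of_pinned {y : ι → ℝ} {B' C' δ : ℝ} (hδ : 0 < δ) (hN : ∀ i, 1 ≤ N i)
    (hy : ∀ i, 0 ≤ y i) (hxy : ∀ i, y i ≤ x i)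
    (hupper : ∀ (T : Finset ι) (s : ℝ), 1 < s → s ≤ 2 →
      ∑ i ∈ T, x i * (N i : ℝ) ^ (-s) ≤ -Real.log (s - 1) + C')
    (hlower : ∀ᶠ s in nhdsWithin (1 : ℝ) (Set.Ioi 1),
      -Real.log (s - 1) - B' ≤ ∑' i, y i * (N i : ℝ) ^ (-s)) :
    Summable (fun i : {i : ι // y i + δ ≤ x i} => ((N i.1 : ℝ))⁻¹) := by
  classical
  refine summable_of_sum_le (c := (C' + B') / δ) (fun i => by positivity) fun T => ?_
  have hlim : Filter.Tendsto
      (fun s : ℝ => ∑ i ∈ T, ((N i.1 : ℝ)) ^ (-s)) (nhdsWithin (1 : ℝ) (Set.Ioi 1))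
      (nhds (∑ i ∈ T, ((N i.1 : ℝ))⁻¹)) := by
    refine tendsto_finsetSum _ fun i _ => ?_
    rw [← Real.rpow_neg_one]
    exact ((Real.continuous_const_rpow (by exact_mod_cast (hN i.1).trans_lt' zero_lt_one |>.ne')).comp
      continuous_neg).continuousWithinAt.tendsto
  refine le_of_tendsto hlim ?_
  filter_upwards [hlower, Ioo_mem_nhdsGT (show (1 : ℝ) < 2 by norm_num)] with s hlow hs
  have hz : ∀ i, 0 ≤ (N i : ℝ) ^ (-s) := fun i => Real.rpow_nonneg (Nat.cast_nonneg _) _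
  rw [le_div_iff₀ hδ]
  set T' : Finset ι := T.map (Function.Embedding.subtype _)
  have hT' : ∀ i ∈ T', y i + δ ≤ x i := by
    intro i hi
    obtain ⟨j, -, rfl⟩ := Finset.mem_map.mp hi
    exact j.2
  have hsum : (∑ i ∈ T, (N i.1 : ℝ) ^ (-s)) = ∑ i ∈ T', (N i : ℝ) ^ (-s) := by
    rw [Finset.sum_map]; rfl
  rw [hsum]
  have key : ∀ U : Finset ι, T' ⊆ U →
      (∑ i ∈ T', (N i : ℝ) ^ (-s)) * δ + ∑ i ∈ U, y i * (N i : ℝ) ^ (-s) ≤
        -Real.log (s - 1) + C' := by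
    intro U hU
    refine le_trans ?_ (hupper U s hs.1 hs.2.le)
    rw [← Finset.sum_sdiff hU, ← Finset.sum_sdiff hU (f := fun i => x i * (N i : ℝ) ^ (-s)),
      Finset.sum_mul]
    have e1 := Finset.sum_le_sum (s := T')
      (f := fun i => (N i : ℝ) ^ (-s) * δ + y i * (N i : ℝ) ^ (-s))
      (g := fun i => x i * (N i : ℝ) ^ (-s))
      fun i hi => by have := hT' i hi; nlinarith [hz i]
    have e2 := Finset.sum_le_sum (s := U \ T') (f := fun i => y i * (N i : ℝ) ^ (-s))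
      (g := fun i => x i * (N i : ℝ) ^ (-s)) fun i _ => mul_le_mul_of_nonneg_right (hxy i) (hz i)
    rw [Finset.sum_add_distrib] at e1
    linarith
  have htsum : (∑' i, y i * (N i : ℝ) ^ (-s)) ≤
      -Real.log (s - 1) + C' - (∑ i ∈ T', (N i : ℝ) ^ (-s)) * δ := by
    refine Real.tsum_le_of_sum_le (fun i => mul_nonneg (hy i) (hz i)) fun U => ?_
    have := key (U ∪ T') Finset.subset_union_right
    have hmono := Finset.sum_le_sum_of_subset_of_nonneg
      (Finset.subset_union_left (s₁ := U) (s₂ := T'))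
      (fun i _ _ => mul_nonneg (hy i) (hz i))
    linarith
  linarith

/-- The roots of `a³ - 3a = t` for `t = ±2` other than the genuine one are at least `δ` larger in
absolute square. -/
theorem sq_ge_of_cube_sub_eq {a e : ℝ} (he : e = 1 ∨ e = -1)
    (h : a ^ 3 - 3 * a = 2 * e) : a = -e ∨ a ^ 2 = 4 := by
  have he2 : e ^ 2 = 1 := by rcases he with rfl | rfl <;> norm_num
  have hfac : (a + e) ^ 2 * (a - 2 * e) = 0 := by
    have he3 : e ^ 3 = e := by rw [pow_succ, he2, one_mul]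
    linear_combination h + (-3 * a) * he2 - 2 * he3
  rcases mul_eq_zero.mp hfac with h0 | h0
  · left
    have := pow_eq_zero_iff (n := 2) two_ne_zero |>.mp h0
    linarith
  · right
    have : a = 2 * e := by linarith
    rw [this, mul_pow, he2]; norm_num

end Fermat.Agent.LT.RankinSelberg
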