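/-
Pinning over `F = ℚ(√-3)` in the form of the descent boundary: eigenvalues agreeing with the
octahedral trace where the Frobenius lies in the quaternion subgroup, and up to `X³ - 3X`
elsewhere, agree with it outside a set of places with `∑ 1 / Nv < ∞`.
-/
import Fermat.Agent.LT.Boundary.Defs
import Fermat.Agent.LT.Density.Places
import Fermat.Agent.LT.RankinSelberg.OctWeight
import Fermat.Agent.LT.RankinSelberg.SecondMoment
import Fermat.Agent.Galois.Cyclotomic
import Mathlib.FieldTheory.Finite.Basic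

set_option autoImplicit false

noncomputable section

namespace Fermat.Agent.LT.RankinSelberg

open NumberField IsDedekindDomain Fermat.Agent.Galois Filter Topology
open scoped Classical

/-- The norm of a place. -/
def placeNorm {K : Type*} [Field K] [NumberField K] (v : HeightOneSpectrum (𝓞 K)) : ℕ :=
  Ideal.absNorm v.asIdeal

section SmallSets

variable {K : Type} [Field K] [NumberField K] {X Y : Set (HeightOneSpectrum (𝓞 K))}

theorem smallPlaceSet_union (hX : SmallPlaceSet X) (hY : SmallPlaceSet Y) :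
    SmallPlaceSet (X ∪ Y) := by
  refine Summable.of_nonneg_of_le (fun v => Set.indicator_nonneg (fun v _ => by positivity) v)
    (fun v => ?_) (hX.add hY)
  have hpos : ∀ Z : Set (HeightOneSpectrum (𝓞 K)),
      0 ≤ Z.indicator (fun v => (1 : ℝ) / (Ideal.absNorm v.asIdeal : ℝ)) v := fun Z =>
    Set.indicator_nonneg (fun v _ => by positivity) v
  by_cases h : v ∈ X
  · rw [Set.indicator_of_mem (Set.mem_union_left _ h), Set.indicator_of_mem h]
    linarith [hpos Y]
  by_cases h' : v ∈ Y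
  · rw [Set.indicator_of_mem (Set.mem_union_right _ h'), Set.indicator_of_mem h']
    linarith [hpos X]
  · rw [Set.indicator_of_notMem (by simp [h, h'])]
    linarith [hpos X, hpos Y]

theorem smallPlaceSet_of_finite (hX : X.Finite) : SmallPlaceSet X :=
  summable_of_ne_finset_zero (s := hX.toFinset) fun v hv =>
    Set.indicator_of_notMem (fun h => hv (hX.mem_toFinset.2 h)) _

theorem smallPlaceSet_not_prime (K : Type) [Field K] [NumberField K] :
    SmallPlaceSet {v : HeightOneSpectrum (𝓞 K) | ¬ (Ideal.absNorm v.asIdeal).Prime} := by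
  refine summable_of_sum_le (c := 2 * Module.finrank ℚ K / (1 : ℕ))
    (fun v => Set.indicator_nonneg (fun v _ => by positivity) v) fun T => ?_
  set A : Set (HeightOneSpectrum (𝓞 K)) := {v | ¬ (Ideal.absNorm v.asIdeal).Prime}
  have hmem : ∀ I ∈ (T.filter (· ∈ A)).image HeightOneSpectrum.asIdeal, I.IsPrime ∧ I ≠ ⊥ ∧
      ¬ S14.DegOne.IsGood K 0 I ∧ 1 ^ 2 < Ideal.absNorm I := by
    intro I hI
    obtain ⟨P, hP, rfl⟩ := Finset.mem_image.mp hI
    refine ⟨P.isPrime, P.ne_bot, fun hg => (Finset.mem_filter.mp hP).2 hg.1, ?_⟩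
    obtain ⟨l, f, hl, hf, hn, -⟩ := S14.DegOne.exists_norm_eq_pow P.isPrime P.ne_bot
    rw [hn, one_pow]
    exact Nat.one_lt_pow hf.ne' hl.one_lt
  have h1 := S14.DegOne.sum_inv_norm_le (N₀ := 0) (M := 1) le_rfl (Nat.zero_le _) _ hmem
  rw [Finset.sum_image fun P _ P' _ h => HeightOneSpectrum.ext h] at h1
  refine le_trans (le_of_eq ?_) h1
  rw [Finset.sum_filter]
  exact Finset.sum_congr rfl fun v _ => by simp [Set.indicator, one_div]

theorem finite_placeNorm_mem {S : Set ℕ} (hS : S.Finite) :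
    {v : HeightOneSpectrum (𝓞 K) | placeNorm v ∈ S}.Finite := by
  refine Set.Finite.of_finite_image ((hS.biUnion fun n _ =>
    Ideal.finite_setOfPred_absNorm_eq (S := 𝓞 K) n).subset ?_)
    fun v _ w _ h => HeightOneSpectrum.ext h
  rintro _ ⟨v, hv, rfl⟩
  exact Set.mem_biUnion hv rfl

end SmallSets

section Places

variable {K : IntermediateField ℚ Qbar} [NumberField K]

theorem natCard_quotient (v : HeightOneSpectrum (𝓞 K)) :
    Nat.card (𝓞 K ⧸ v.asIdeal) = placeNorm v := by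
  rw [placeNorm, Ideal.absNorm_apply, Submodule.cardQuot_apply]

theorem pow_sub_self_mem (v : HeightOneSpectrum (𝓞 K)) (x : 𝓞 K) :
    x ^ placeNorm v - x ∈ v.asIdeal := by
  have := v.isPrime.isMaximal v.ne_bot
  letI := Ideal.Quotient.field v.asIdeal
  have : Finite (𝓞 K ⧸ v.asIdeal) := Ring.HasFiniteQuotients.finiteQuotient v.ne_bot
  letI := Fintype.ofFinite (𝓞 K ⧸ v.asIdeal)
  rw [← Ideal.Quotient.eq, map_pow, ← natCard_quotient v, Nat.card_eq_fintype_card,
    FiniteField.pow_card]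

theorem liesOverPrime_of_placeAbove {v : HeightOneSpectrum (𝓞 K)} {A : ValuationSubring Qbar}
    (hA : PlaceAbove K v.asIdeal A) : A.LiesOverPrime (placeNorm v) := by
  have h := (hA _).1 (Ideal.absNorm_mem v.asIdeal)
  simpa [ValuationSubring.LiesOverPrime, placeNorm] using h

theorem exists_placeAbove (v : HeightOneSpectrum (𝓞 K)) :
    ∃ A : ValuationSubring Qbar, PlaceAbove K v.asIdeal A := by
  let e : 𝓞 K →+* Qbar := (algebraMap K Qbar).comp (algebraMap (𝓞 K) K)
  have he : Function.Injective e :=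
    (algebraMap K Qbar).injective.comp (FaithfulSMul.algebraMap_injective (𝓞 K) K)
  let ε : 𝓞 K ≃+* e.range := RingEquiv.ofBijective e.rangeRestrict
    ⟨fun x y h => he (Subtype.ext_iff.1 h :), e.rangeRestrict_surjective⟩
  have hI : Ideal.comap (ε.symm : e.range →+* 𝓞 K) v.asIdeal ≠ ⊤ := fun h =>
    v.isPrime.ne_top ((Ideal.eq_top_iff_one _).2 (by
      simpa using (Ideal.eq_top_iff_one _).1 h))
  obtain ⟨A, -, hA⟩ := Ideal.image_subset_nonunits_valuationSubring _ hI
  have hint : ∀ x : 𝓞 K, ((x : K) : Qbar) ∈ A := fun x => place_mem_of_isIntegral A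
    ((RingOfIntegers.isIntegral_coe x).map (IsScalarTower.toAlgHom ℤ K Qbar))
  have hmem : ∀ x ∈ v.asIdeal, ((x : K) : Qbar) ∈ A.nonunits := fun x hx =>
    hA ⟨ε x, by simpa using hx, rfl⟩
  let P : Ideal (𝓞 K) :=
    { carrier := {x | ((x : K) : Qbar) ∈ A.nonunits}
      add_mem' := fun {a b} ha hb => by simpa using A.nonunits.add_mem ha hb
      zero_mem' := by simpa using hmem 0 v.asIdeal.zero_mem
      smul_mem' := fun c x hx => by
        rw [Set.mem_ofPred_eq] at hx ⊢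
        obtain ⟨hx0, hx'⟩ := ValuationSubring.mem_nonunits_iff_exists_mem_maximalIdeal.1 hx
        refine ValuationSubring.mem_nonunits_iff_exists_mem_maximalIdeal.2
          ⟨place_mem_of_isIntegral A ((RingOfIntegers.isIntegral_coe (c * x)).map
            (IsScalarTower.toAlgHom ℤ K Qbar)), ?_⟩
        convert Ideal.mul_mem_left _ (⟨_, hint c⟩ : A) hx' using 1
        exact Subtype.ext (by simp) }
  have hP : P ≠ ⊤ := fun h => by
    have h1 : ((((1 : 𝓞 K)) : K) : Qbar) ∈ A.nonunits := (Ideal.eq_top_iff_one P).1 h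
    rw [ValuationSubring.mem_nonunits_iff] at h1
    simp at h1
  have := (v.isPrime.isMaximal v.ne_bot).eq_of_le hP fun x hx => hmem x hx
  exact ⟨A, fun x => ⟨hmem x, fun hx => this.symm ▸ (show x ∈ P from hx)⟩⟩

theorem isFrobeniusAt_of_placeAbove {v : HeightOneSpectrum (𝓞 K)} {A : ValuationSubring Qbar}
    {σ : GalQ} (hd : σ ∈ A.decompositionSubgroup ℚ)
    (h : ∀ x ∈ A, σ x - x ^ Nat.card (𝓞 K ⧸ v.asIdeal) ∈ A.nonunits) :
    A.IsFrobeniusAt σ (placeNorm v) := by
  rw [natCard_quotient] at h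
  exact isFrobeniusAt_iff.2 ⟨hd, h⟩

end Places

theorem cyclotomic_zeta_mem_fieldF {ζ : Qbar} (hζ : IsPrimitiveRoot ζ 3) : ζ ∈ fieldF := by
  intro g
  have hg : WeierstrassCurve.modThreeCyclotomicChar g.1 = 1 := g.2
  rw [WeierstrassCurve.modThreeCyclotomicChar_apply] at hg
  have hroot : (hζ.isUnit (by norm_num)).unit ∈ rootsOfUnity 3 Qbar := by
    rw [mem_rootsOfUnity]
    exact Units.ext (by simpa using hζ.pow_eq_one)
  have h := modularCyclotomicCharacter.spec Qbar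
    (IsAlgClosed.card_rootsOfUnity_eq (AlgebraicClosure ℚ) 3) (g.1 : Qbar ≃+* Qbar) hroot
  rw [hg] at h
  show g.1 ζ = ζ
  simpa [show (1 : ZMod 3).val = 1 by decide] using h

theorem exists_isFrobOver_fieldF (v : HeightOneSpectrum (𝓞 fieldF)) (hp : (placeNorm v).Prime)
    (h3 : placeNorm v ≠ 3) : ∃ σ, IsFrobOver fieldF v.asIdeal σ := by
  obtain ⟨A, hA⟩ := exists_placeAbove v
  have hAp := liesOverPrime_of_placeAbove hA
  obtain ⟨σ, hσ⟩ := exists_isFrobeniusAt hAp hp
  obtain ⟨hd, hcong⟩ := isFrobeniusAt_iff.1 hσ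
  refine ⟨σ, ?_, A, hA, hd, by rw [natCard_quotient]; exact hcong⟩
  obtain ⟨ζ, hζ⟩ := HasEnoughRootsOfUnity.exists_primitiveRoot Qbar 3
  have hint : IsIntegral ℤ ζ := hζ.isIntegral (by norm_num)
  have hint' : IsIntegral ℤ (⟨ζ, cyclotomic_zeta_mem_fieldF hζ⟩ : fieldF) :=
    (isIntegral_algHom_iff (IsScalarTower.toAlgHom ℤ fieldF Qbar)
      Subtype.val_injective).1 hint
  have h1 := (hA _).1 (pow_sub_self_mem v ⟨⟨ζ, cyclotomic_zeta_mem_fieldF hζ⟩, hint'⟩)
  have h2 := hcong ζ (place_mem_of_isIntegral A hint)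
  have h4 : σ ζ - ζ ∈ A.nonunits := by
    have h1' : ζ ^ placeNorm v - ζ ∈ A.nonunits := by exact h1
    simpa using A.nonunits.add_mem h2 h1'
  have hfix : σ ζ = ζ := rootOfUnity_eq_of_sub_mem_nonunits hAp hp
    (fun h => h3 ((Nat.prime_dvd_prime_iff_eq hp Nat.prime_three).1 h))
    (by rw [← map_pow, hζ.pow_eq_one, map_one]) hζ.pow_eq_one h4
  exact (IntermediateField.mem_fixingSubgroup_iff _ _).2 fun x hx =>
    hx ⟨σ, modThreeCyclotomicChar_eq_one_of_fixes hζ hfix⟩

variable {W : WeierstrassCurve ℤ} {ρ : GalQ →* GL (Fin 2) (ZMod 3)}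

/-- **Pinning over `F`.** -/
theorem exists_smallPlaceSet_eq_octTrace (hρ : IsThreeRep W ρ)
    {S : Set (HeightOneSpectrum (𝓞 fieldF))} (hS : S.Finite)
    (a : HeightOneSpectrum (𝓞 fieldF) → ℂ) {C : ℝ}
    (hquat : ∀ v, v ∉ S → (placeNorm v).Prime → ∀ σ, IsFrobOver fieldF v.asIdeal σ →
      ρ σ ∈ quatSubgroup → a v = octTrace ρ σ)
    (hcube : ∀ v, v ∉ S → (placeNorm v).Prime → ∀ σ, IsFrobOver fieldF v.asIdeal σ →
      ρ σ ∉ quatSubgroup → a v ^ 3 - 3 * a v = octTrace ρ σ ^ 3 - 3 * octTrace ρ σ)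
    (hmom : SquarefreeMomentBound
      (fun v : {v : HeightOneSpectrum (𝓞 fieldF) // v ∉ S ∧ (placeNorm v).Prime} => placeNorm v.1)
      (fun v => ‖a v.1‖ ^ 2) C) :
    ∃ X : Set (HeightOneSpectrum (𝓞 fieldF)), SmallPlaceSet X ∧
      ∀ v σ, IsFrobOver fieldF v.asIdeal σ → v ∉ X → a v = octTrace ρ σ := by
  obtain ⟨S₂, hS₂, hconj⟩ := Density.exists_finite_isConj_frobLift ρ hρ.factors
  set U : Subgroup (GL (Fin 2) (ZMod 3)) :=
    (Matrix.GeneralLinearGroup.det : GL (Fin 2) (ZMod 3) →* (ZMod 3)ˣ).ker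
  have hUker : U.comap ρ = kerOmega := by
    ext σ; simp [U, kerOmega, hρ.det]
  have hfix : ∀ σ, σ ∈ fieldF.fixingSubgroup ↔ ρ σ ∈ U := by
    intro σ
    rw [← Density.fixing_iff_mem ρ hρ.factors U σ, hUker, IntermediateField.mem_fixingSubgroup_iff]
    exact ⟨fun h x => h x x.2, fun h x hx => h ⟨x, hx⟩⟩
  have hdet : ∀ {v : HeightOneSpectrum (𝓞 fieldF)} {σ : GalQ}, IsFrobOver fieldF v.asIdeal σ →
      Matrix.GeneralLinearGroup.det (ρ σ) = 1 := fun h => MonoidHom.mem_ker.1 ((hfix _).1 h.1)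
  set g : HeightOneSpectrum (𝓞 fieldF) → ℝ := fun v =>
    octWeight (ρ (Density.frobLift (placeNorm v))) with hg
  have hcj : ∀ (p : ℕ), p.Prime → p ∉ S₂ → ∀ A : ValuationSubring Qbar, A.LiesOverPrime p →
      ∀ σ, A.IsFrobeniusAt σ p → octWeight (ρ (Density.frobLift p)) = octWeight (ρ σ) := by
    intro p hp hpS A hA σ hσ
    obtain ⟨c, hc⟩ := isConj_iff.1 (hconj p hp hpS A hA σ hσ)
    rw [← hc, isRationalClassFun_octWeight.conj]
  have hgB : ∀ v, |g v| ≤ 6 := fun v => by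
    simp only [hg, octWeight]; split_ifs <;> norm_num
  obtain ⟨C₁, hC₁⟩ := Density.exists_abs_placeSum_sub_le ρ fieldF.val U hρ.factors hρ.surjective
    (fun σ => by
      rw [← hfix, IntermediateField.mem_fixingSubgroup_iff]
      exact ⟨fun h x hx => h ⟨x, hx⟩, fun h x => h x x.2⟩)
    isRationalClassFun_octWeight g hgB hS₂ (fun v p hp hv hpS A hA σ hσ => by
      show octWeight (ρ (Density.frobLift (placeNorm v))) = _
      rw [show placeNorm v = p from hv]
      exact hcj p hp hpS A hA σ hσ)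
  have hmean : ∀ inst : ∀ x : GL (Fin 2) (ZMod 3), Decidable (x ∈ U),
      (∑ x : GL (Fin 2) (ZMod 3), @ite ℝ (x ∈ U) (inst x) (octWeight x) 0) / Nat.card U = 1 := by
    intro inst
    convert mean_octWeight
  have hC₁' : ∀ s : ℝ, 1 < s → s ≤ 2 →
      Summable (fun v => g v * (Ideal.absNorm v.asIdeal : ℝ) ^ (-s)) ∧
      |(∑' v, g v * (Ideal.absNorm v.asIdeal : ℝ) ^ (-s)) - 1 * Real.log (1 / (s - 1))| ≤ C₁ := by
    intro s h1 h2
    obtain ⟨hsum, hb⟩ := hC₁ s h1 h2
    refine ⟨hsum, ?_⟩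
    convert hb using 4
    exact (hmean _).symm
  set S' : Set (HeightOneSpectrum (𝓞 fieldF)) := S ∪ {v | placeNorm v ∈ insert 3 S₂} with hS'
  set I : Set (HeightOneSpectrum (𝓞 fieldF)) := {v | v ∉ S' ∧ (placeNorm v).Prime} with hI
  have hgood : ∀ v ∈ I, ∀ σ, IsFrobOver fieldF v.asIdeal σ →
      g v = octWeight (ρ σ) ∧ (a v = octTrace ρ σ ∨ (g v = 1 ∧ ‖a v‖ ^ 2 = 4)) := by
    rintro v ⟨hvS, hp⟩ σ hσ
    simp only [hS', Set.mem_union, Set.mem_ofPred_eq, Set.mem_insert_iff, not_or] at hvS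
    obtain ⟨hfixσ, A, hA, hd, hcong⟩ := hσ
    have heq := hcj _ hp hvS.2.2 A (liesOverPrime_of_placeAbove hA) σ
      (isFrobeniusAt_of_placeAbove hd hcong)
    have hσ' : IsFrobOver fieldF v.asIdeal σ := ⟨hfixσ, A, hA, hd, hcong⟩
    refine ⟨heq, ?_⟩
    by_cases hq : ρ σ ∈ quatSubgroup
    · exact Or.inl (hquat v hvS.1 hp σ hσ' hq)
    · obtain ⟨n, hn, hnw⟩ := exists_int_trace_octRep (hdet hσ')
      have ht : octTrace ρ σ = n := hn
      have hw := octWeight_eq_one hq (hdet hσ')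
      rw [hw] at hnw
      have hn1 : (n : ℂ) ^ 2 = 1 := by exact_mod_cast hnw
      have h0 := hcube v hvS.1 hp σ hσ' hq
      rw [ht] at h0
      have hfac : (a v - n) * ((a v - n) * (a v + 2 * n)) = 0 := by
        linear_combination h0 + (-3 * a v + 3 * (n : ℂ)) * hn1
      rcases mul_eq_zero.1 hfac with h | h
      · exact Or.inl (by rw [ht]; exact sub_eq_zero.1 h)
      rcases mul_eq_zero.1 h with h | h
      · exact Or.inl (by rw [ht]; exact sub_eq_zero.1 h)
      · refine Or.inr ⟨heq.trans hw, ?_⟩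
        rw [eq_neg_of_add_eq_zero_left h, norm_neg, norm_mul, mul_pow, ← norm_pow (n : ℂ), hn1]
        norm_num
  have hexists : ∀ v ∈ I, ∃ σ, IsFrobOver fieldF v.asIdeal σ := fun v hv =>
    exists_isFrobOver_fieldF v hv.2 fun h => hv.1 (Or.inr (Or.inl h))
  have hbounds : ∀ v ∈ I, 0 ≤ g v ∧ g v ≤ ‖a v‖ ^ 2 ∧ ‖a v‖ ^ 2 ≤ 6 := by
    intro v hv
    obtain ⟨σ, hσ⟩ := hexists v hv
    obtain ⟨hgv, hcase⟩ := hgood v hv σ hσ
    obtain ⟨n, hn, hnw⟩ := exists_int_trace_octRep (hdet hσ)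
    have h0 : 0 ≤ g v := by rw [hgv, ← hnw]; positivity
    rcases hcase with h | ⟨h1, h4⟩
    · have : ‖a v‖ ^ 2 = g v := by
        rw [h, show octTrace ρ σ = n from hn, hgv, ← hnw, Complex.norm_intCast, sq_abs]
      exact ⟨h0, this.ge, this.le.trans ((le_abs_self _).trans (hgB v))⟩
    · exact ⟨h0, by rw [h1, h4]; norm_num, by rw [h4]; norm_num⟩
  obtain ⟨D, hD⟩ : ∃ D : ℝ, ∀ T : Finset I, ∑ v ∈ T, (((placeNorm v.1 : ℕ) : ℝ) ^ 2)⁻¹ ≤ D := by
    have hs := (S14.summable_primeNorm (K := fieldF) (show (1 : ℝ) < 2 by norm_num)).comp_injective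
      (Subtype.val_injective (p := fun v => v ∈ I))
    refine ⟨_, fun T => le_trans (le_of_eq (Finset.sum_congr rfl fun v _ => ?_))
      (hs.sum_le_tsum T fun v _ => ?_)⟩
    · simp [S14.primeNorm, placeNorm, Real.rpow_neg, Real.rpow_two]
    · exact Real.rpow_nonneg (Nat.cast_nonneg _) _
  have hmom' : SquarefreeMomentBound (fun v : I => placeNorm v.1) (fun v => ‖a v.1‖ ^ 2) C := by
    intro 𝒯 X hX h𝒯
    let ι : I ↪ {v : HeightOneSpectrum (𝓞 fieldF) // v ∉ S ∧ (placeNorm v).Prime} :=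
      ⟨fun v => ⟨v.1, fun h => v.2.1 (Or.inl h), v.2.2⟩, fun v w h => by
        simpa [Subtype.ext_iff] using h⟩
    have hι : ∀ v, (ι v).1 = v.1 := fun v => rfl
    have h := hmom (𝒯.map (Finset.mapEmbedding ι).toEmbedding) X hX (by
      intro T hT
      obtain ⟨T₀, hT₀, rfl⟩ := Finset.mem_map.1 hT
      simpa [Finset.mapEmbedding_apply, hι] using h𝒯 T₀ hT₀)
    simpa [Finset.mapEmbedding_apply, hι] using h
  have hcompl : SmallPlaceSet Iᶜ := by
    have : Iᶜ = S' ∪ {v | ¬ (placeNorm v).Prime} := by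
      ext v; simp [hI, hS']; tauto
    rw [this]
    exact smallPlaceSet_union (smallPlaceSet_of_finite
      (hS.union (finite_placeNorm_mem (hS₂.insert 3)))) (smallPlaceSet_not_prime _)
  have hN1 : ∀ v : HeightOneSpectrum (𝓞 fieldF), 1 ≤ placeNorm v := fun v =>
    Nat.one_le_iff_ne_zero.2 fun h => v.ne_bot (Ideal.absNorm_eq_zero_iff.1 h)
  have key := summable_inv_of_pinned (ι := I) (N := fun v => placeNorm v.1)
    (x := fun v => ‖a v.1‖ ^ 2) (y := fun v => g v.1) (δ := 3)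
    (B' := C₁ + 6 * ∑' v, Iᶜ.indicator (fun v => (1 : ℝ) / (Ideal.absNorm v.asIdeal : ℝ)) v)
    (by norm_num) (fun v => hN1 v.1) (fun v => (hbounds v v.2).1) (fun v => (hbounds v v.2).2.1)
    (fun T s h1 h2 => sum_mul_rpow_le_log hmom' (fun v => hN1 v.1) (fun v => sq_nonneg _)
      (fun v => (hbounds v v.2).2.2) hD T h1 h2)
    (by
      filter_upwards [Ioo_mem_nhdsGT (show (1 : ℝ) < 2 by norm_num)] with s hs
      obtain ⟨hsum, habs⟩ := hC₁' s hs.1 hs.2.le
      rw [one_mul, one_div, Real.log_inv, abs_le] at habs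
      set f := fun v : HeightOneSpectrum (𝓞 fieldF) =>
        g v * (Ideal.absNorm v.asIdeal : ℝ) ^ (-s) with hf
      have hle : (∑' v, f v) ≤ (∑' v, I.indicator f v) +
          6 * ∑' v, Iᶜ.indicator (fun v => (1 : ℝ) / (Ideal.absNorm v.asIdeal : ℝ)) v := by
        rw [← tsum_mul_left, ← (hsum.indicator I).tsum_add (hcompl.mul_left 6)]
        refine hsum.tsum_le_tsum (fun v => ?_) ((hsum.indicator I).add (hcompl.mul_left 6))
        by_cases hv : v ∈ I
        · rw [Set.indicator_of_mem hv, Set.indicator_of_notMem (Set.notMem_compl_iff.2 hv),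
            mul_zero, add_zero]
        · rw [Set.indicator_of_notMem hv, Set.indicator_of_mem (Set.mem_compl hv), zero_add]
          refine mul_le_mul ((le_abs_self _).trans (hgB v)) ?_ (by positivity) (by norm_num)
          rw [one_div, ← Real.rpow_neg_one]
          exact Real.rpow_le_rpow_of_exponent_le (by exact_mod_cast hN1 v) (by linarith [hs.1])
      rw [← tsum_subtype I f] at hle
      change _ ≤ ∑' v : I, f v.1
      linarith)
  refine ⟨Iᶜ ∪ {v | v ∈ I ∧ g v + 3 ≤ ‖a v‖ ^ 2}, smallPlaceSet_union hcompl ?_,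
    fun v σ hσ hv => ?_⟩
  · refine summable_subtype_iff_indicator.1 ?_
    let e : {v // v ∈ {v | v ∈ I ∧ g v + 3 ≤ ‖a v‖ ^ 2}} →
        {i : I // g i.1 + 3 ≤ ‖a i.1‖ ^ 2} := fun v => ⟨⟨v.1, v.2.1⟩, v.2.2⟩
    have he : Function.Injective e := fun v w h => Subtype.ext (congrArg (fun z => z.1.1) h)
    refine (key.comp_injective he).congr fun v => ?_
    simp [e, placeNorm]
  · simp only [Set.mem_union, Set.mem_compl_iff, Set.mem_ofPred_eq, not_or, not_not] at hv
    rcases (hgood v hv.1 σ hσ).2 with h | ⟨h1, h4⟩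
    · exact h
    · exact absurd ⟨hv.1, by rw [h1, h4]; norm_num⟩ hv.2

end Fermat.Agent.LT.RankinSelberg
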