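/-
Burnside's theorem and the nonvanishing of twisted traces.
-/
import Mathlib.RingTheory.SimpleModule.Basic
import Mathlib.FieldTheory.IsAlgClosed.Spectrum
import Mathlib.LinearAlgebra.Eigenspace.Triangularizable
import Mathlib.LinearAlgebra.Trace
import Mathlib.LinearAlgebra.Dual.Lemmas
import Mathlib.Algebra.Algebra.Subalgebra.Lattice

set_option autoImplicit false

noncomputable section

namespace Fermat.Agent.LT.RankinSelberg

variable {k W : Type*} [Field k] [IsAlgClosed k] [AddCommGroup W] [Module k W]
  [FiniteDimensional k W]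

/-- Burnside: an irreducible algebra of operators on a finite-dimensional space over an
algebraically closed field contains every operator. -/
theorem subalgebra_eq_top_of_irreducible (A : Subalgebra k (Module.End k W))
    (hirr : ∀ p : Submodule k W, (∀ a ∈ A, ∀ x ∈ p, a x ∈ p) → p = ⊥ ∨ p = ⊤) : A = ⊤ := by
  rcases subsingleton_or_nontrivial W with hW | hW
  · refine eq_top_iff.mpr fun f _ => ?_
    have : f = 0 := LinearMap.ext fun x => Subsingleton.elim _ _
    rw [this]; exact zero_mem A
  have : IsSimpleModule A W := by
    have : Nontrivial (Submodule A W) := (Submodule.nontrivial_iff A).mpr hW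
    rw [isSimpleModule_iff]
    refine ⟨fun p => ?_⟩
    let q : Submodule k W :=
      { carrier := p
        add_mem' := p.add_mem
        zero_mem' := p.zero_mem
        smul_mem' := fun c x hx => by
          simpa using p.smul_mem ⟨algebraMap k (Module.End k W) c, A.algebraMap_mem c⟩ hx }
    rcases hirr q (fun a ha x hx => p.smul_mem ⟨a, ha⟩ hx) with h | h
    · exact Or.inl (SetLike.ext fun x => by
        have := SetLike.ext_iff.mp h x; simpa [q, Submodule.mem_bot] using! this)
    · exact Or.inr (SetLike.ext fun x => by
        have := SetLike.ext_iff.mp h x; simpa [q, Submodule.mem_top] using! this)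
  refine eq_top_iff.mpr fun f _ => ?_
  have hsc : ∀ g : Module.End A W, ∃ c : k, ∀ x, g x = c • x := by
    intro g
    let g' : Module.End k W :=
      { toFun := g
        map_add' := g.map_add
        map_smul' := fun c x => by
          simpa using g.map_smul ⟨algebraMap k (Module.End k W) c, A.algebraMap_mem c⟩ x }
    obtain ⟨c, hc⟩ := Module.End.exists_eigenvalue g'
    refine ⟨c, ?_⟩
    have hcomm : ∀ a ∈ A, ∀ x ∈ g'.eigenspace c, a x ∈ g'.eigenspace c := by
      intro a ha x hx
      rw [Module.End.mem_eigenspace_iff] at hx ⊢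
      have e : g (a x) = a (g x) := g.map_smul ⟨a, ha⟩ x
      show g (a x) = c • a x
      rw [e, show g x = c • x from hx, map_smul]
    rcases hirr _ hcomm with h | h
    · exact absurd h hc
    · intro x
      have : x ∈ g'.eigenspace c := h ▸ Submodule.mem_top
      exact Module.End.mem_eigenspace_iff.mp this
  let F : Module.End (Module.End A W) W :=
    { toFun := f
      map_add' := f.map_add
      map_smul' := fun g x => by
        obtain ⟨c, hc⟩ := hsc g
        simp [hc] }
  let b := Module.finBasis k W
  classical
  obtain ⟨r, hr⟩ := jacobson_density F (Finset.univ.image b)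
  have : f = (r : Module.End k W) := b.ext fun i => hr (b i) (by simp)
  rw [this]
  exact r.2

/-- For an irreducible monoid of operators, every nonzero operator has a nonzero trace against
some member. -/
theorem exists_trace_mul_ne_zero {M : Submonoid (Module.End k W)}
    (hirr : ∀ p : Submodule k W, (∀ a ∈ M, ∀ x ∈ p, a x ∈ p) → p = ⊥ ∨ p = ⊤)
    {σ : Module.End k W} (hσ : σ ≠ 0) : ∃ a ∈ M, LinearMap.trace k W (a * σ) ≠ 0 := by
  have htop : Algebra.adjoin k (M : Set (Module.End k W)) = ⊤ :=
    subalgebra_eq_top_of_irreducible _ fun p hp =>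
      hirr p fun a ha => hp a (Algebra.subset_adjoin ha)
  by_contra hno
  push Not at hno
  have hall : ∀ a : Module.End k W, LinearMap.trace k W (a * σ) = 0 := by
    intro a
    have ha : a ∈ Submodule.span k (M : Set (Module.End k W)) := by
      have h : a ∈ Algebra.adjoin k (M : Set (Module.End k W)) := htop ▸ Algebra.mem_top
      rwa [← Subalgebra.mem_toSubmodule, Algebra.adjoin_eq_span, Submonoid.closure_eq] at h
    induction ha using Submodule.span_induction with
    | mem x hx => exact hno x hx
    | zero => simp
    | add x y _ _ hx hy => rw [add_mul, map_add, hx, hy, add_zero]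
    | smul c x _ hx => rw [smul_mul_assoc, map_smul, hx, smul_zero]
  obtain ⟨x, hx⟩ : ∃ x, σ x ≠ 0 := by
    by_contra h
    push Not at h
    exact hσ (LinearMap.ext h)
  obtain ⟨φ, hφ⟩ := Module.Projective.exists_dual_eq_one k hx
  have h := hall (φ.smulRight x)
  rw [show φ.smulRight x * σ = (φ.comp σ).smulRight x from rfl, LinearMap.trace_smulRight,
    LinearMap.comp_apply, hφ] at h
  exact one_ne_zero h

/-- The same for a representation of a monoid. -/
theorem exists_trace_apply_mul_ne_zero {G : Type*} [Monoid G] (R : G →* Module.End k W)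
    (hirr : ∀ p : Submodule k W, (∀ g, ∀ x ∈ p, R g x ∈ p) → p = ⊥ ∨ p = ⊤)
    {σ : Module.End k W} (hσ : σ ≠ 0) : ∃ g, LinearMap.trace k W (R g * σ) ≠ 0 := by
  obtain ⟨_, ⟨g, rfl⟩, h⟩ := exists_trace_mul_ne_zero (M := MonoidHom.mrange R)
    (fun p hp => hirr p fun g => hp _ ⟨g, rfl⟩) hσ
  exact ⟨g, h⟩

end Fermat.Agent.LT.RankinSelberg
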