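/-
From Hecke multiplicativity of Fourier coefficients to the squarefree moment bound.
-/
import Fermat.Agent.LT.RankinSelberg.SecondMoment

set_option autoImplicit false

noncomputable section

namespace Fermat.Agent.LT.RankinSelberg

open Finset

/-- **Multiplicativity gives the moment bound.**  `coef c` are the coefficient functions of
finitely many translates (indexed by residues `c`), each with linearly bounded partial sums;
along the frequencies `e T` they are multiplicative up to the twist `σ T` of the residue. -/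
theorem squarefreeMomentBound_of_multiplicative {ι A G : Type*} [Group G] [Fintype G]
    {N : ι → ℕ} {x : ι → ℝ} {nu : A → ℝ} {coef : G → A → ℂ} {C : ℝ} (hC : 0 ≤ C)
    (hcount : ∀ c (U : Finset A) (X : ℝ), 0 < X → (∀ α ∈ U, nu α ≤ X) →
      ∑ α ∈ U, ‖coef c α‖ ^ 2 ≤ C * X)
    {e : Finset ι → A} (he : Function.Injective e) {R : ℝ} (hR : 0 < R)
    (hnu : ∀ T, nu (e T) = R * ((∏ i ∈ T, N i : ℕ) : ℝ))
    {w : G → ℂ} (hw : w ≠ 0) {σ : Finset ι → G}
    (hmul : ∀ c T, ‖coef c (e T)‖ ^ 2 = (∏ i ∈ T, x i) * ‖w (c * σ T)‖ ^ 2) :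
    SquarefreeMomentBound N x (Fintype.card G * C * R / ∑ c, ‖w c‖ ^ 2) := by
  classical
  intro 𝒯 X hX hT
  obtain ⟨c₀, hc₀⟩ : ∃ c, w c ≠ 0 := by
    by_contra h; exact hw (funext fun c => not_not.mp fun hne => h ⟨c, hne⟩)
  have hW : 0 < ∑ c, ‖w c‖ ^ 2 :=
    Finset.sum_pos' (fun c _ => sq_nonneg _) ⟨c₀, Finset.mem_univ _, by positivity⟩
  have hX' : (0 : ℝ) < R * X := by
    have : (1 : ℝ) ≤ X := by exact_mod_cast hX
    positivity
  have hbound : ∀ c, ∑ T ∈ 𝒯, ‖coef c (e T)‖ ^ 2 ≤ C * (R * X) := by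
    intro c
    rw [← Finset.sum_image (f := fun α => ‖coef c α‖ ^ 2) fun a _ b _ h => he h]
    refine hcount c _ _ hX' fun α hα => ?_
    obtain ⟨T, hT', rfl⟩ := Finset.mem_image.mp hα
    rw [hnu]
    exact mul_le_mul_of_nonneg_left (by exact_mod_cast hT T hT') hR.le
  have key : (∑ T ∈ 𝒯, ∏ i ∈ T, x i) * ∑ c, ‖w c‖ ^ 2 =
      ∑ c, ∑ T ∈ 𝒯, ‖coef c (e T)‖ ^ 2 := by
    rw [Finset.sum_comm, Finset.sum_mul]
    refine Finset.sum_congr rfl fun T _ => ?_
    simp only [hmul, ← Finset.mul_sum]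
    congr 1
    exact (Equiv.sum_comp (Equiv.mulRight (σ T)) fun c => ‖w c‖ ^ 2).symm
  rw [div_mul_eq_mul_div, le_div_iff₀ hW, key]
  refine (Finset.sum_le_sum fun c _ => hbound c).trans (le_of_eq ?_)
  rw [Finset.sum_const, Finset.card_univ, nsmul_eq_mul]
  ring

/-- Multiplicativity along finite sets from one-prime recursions. -/
theorem prod_rule_of_step {ι G : Type*} [CommGroup G] [DecidableEq ι] {x : ι → ℝ}
    {f : G → Finset ι → ℝ} {τ : ι → G}
    (hstep : ∀ c T i, i ∉ T → f c (insert i T) = x i * f (c * τ i) T) (c : G) (T : Finset ι) :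
    f c T = (∏ i ∈ T, x i) * f (c * ∏ i ∈ T, τ i) ∅ := by
  induction T using Finset.induction_on generalizing c with
  | empty => simp
  | @insert i T hi ih =>
    rw [hstep c T i hi, ih, Finset.prod_insert hi, Finset.prod_insert hi, mul_assoc c]
    ring

end Fermat.Agent.LT.RankinSelberg
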