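/-
Bessel's inequality for bounded exponential series and the resulting coefficient count
(Hecke's trivial bound for cusp forms on hyperbolic space).
-/
import Mathlib.Analysis.Fourier.AddCircleMulti
import Mathlib.Analysis.InnerProductSpace.Orthonormal
import Mathlib.Analysis.InnerProductSpace.l2Space

set_option autoImplicit false

noncomputable section

namespace Fermat.Agent.LT.RankinSelberg

open MeasureTheory UnitAddTorus Complex

open scoped InnerProductSpace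

attribute [local instance] instMeasureSpaceUnitAddCircle

local instance isProbabilityMeasure_unitAddCircle :
    IsProbabilityMeasure (volume : Measure UnitAddCircle) :=
  inferInstanceAs (IsProbabilityMeasure AddCircle.haarAddCircle)

variable {d : Type*} [Fintype d] {A : Type*}

theorem mFourier_coe_apply (n : d → ℤ) (x : d → ℝ) :
    mFourier n (fun i => (x i : UnitAddCircle))
      = exp (2 * Real.pi * I * ∑ i, (x i : ℂ) * (n i : ℂ)) := by
  simp only [mFourier, ContinuousMap.coe_mk, fourier_coe_apply, Finset.mul_sum, Complex.exp_sum]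
  refine Finset.prod_congr rfl fun i _ => ?_
  congr 1
  push_cast
  ring

/-- A series of exponentials with distinct frequencies bounded by `M` has `∑ ‖c‖² ≤ M²`. -/
theorem sum_sq_le_of_bounded {k : A → d → ℤ} (hk : Function.Injective k) {c : A → ℂ}
    (hc : Summable fun a => ‖c a‖) {M : ℝ} (hM : 0 ≤ M)
    (hbd : ∀ x : d → ℝ, ‖∑' a, c a * exp (2 * Real.pi * I * ∑ i, (x i : ℂ) * (k a i : ℂ))‖ ≤ M)
    (T : Finset A) : ∑ a ∈ T, ‖c a‖ ^ 2 ≤ M ^ 2 := by
  have hsum : Summable fun a => c a • (mFourier (k a) : C(UnitAddTorus d, ℂ)) :=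
    Summable.of_norm_bounded hc fun a => by rw [norm_smul, mFourier_norm, mul_one]
  set G : C(UnitAddTorus d, ℂ) := ∑' a, c a • (mFourier (k a) : C(UnitAddTorus d, ℂ)) with hG
  have hGle : ‖G‖ ≤ M := by
    rw [ContinuousMap.norm_le G hM]
    intro p
    obtain ⟨x, rfl⟩ : ∃ x : d → ℝ, (fun i => (x i : UnitAddCircle)) = p :=
      ⟨fun i => (QuotientAddGroup.mk_surjective (p i)).choose,
        funext fun i => (QuotientAddGroup.mk_surjective (p i)).choose_spec⟩
    have h := (ContinuousMap.evalCLM ℂ (fun i => (x i : UnitAddCircle))).hasSum hsum.hasSum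
    simp only [map_smul, ContinuousMap.evalCLM_apply, mFourier_coe_apply, smul_eq_mul] at h
    rw [hG, ← h.tsum_eq]
    exact hbd x
  set y := ContinuousMap.toLp (E := ℂ) 2 (volume : Measure (UnitAddTorus d)) ℂ G with hy
  have hys : HasSum (fun a => c a • mFourierLp (d := d) 2 (k a)) y := by
    have h := (ContinuousMap.toLp (E := ℂ) 2 (volume : Measure (UnitAddTorus d)) ℂ).hasSum hsum.hasSum
    simp only [map_smul] at h
    exact h
  have horth : Orthonormal ℂ (fun a => mFourierLp (d := d) 2 (k a)) :=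
    orthonormal_mFourier.comp k hk
  have hcoef : ∀ a, ⟪mFourierLp (d := d) 2 (k a), y⟫_ℂ = c a := by
    classical
    intro a
    have h := (innerSL ℂ (mFourierLp (d := d) 2 (k a))).hasSum hys
    simp only [map_smul, innerSL_apply_apply, orthonormal_iff_ite.mp horth, smul_eq_mul,
      mul_ite, mul_one, mul_zero] at h
    refine h.unique ?_
    have h2 := hasSum_single (f := fun b => if a = b then c b else 0) a
      (fun b hb => if_neg (Ne.symm hb))
    simpa using h2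
  have hbes : ∑ a ∈ T, ‖⟪mFourierLp (d := d) 2 (k a), y⟫_ℂ‖ ^ 2 ≤ ‖y‖ ^ 2 :=
    horth.sum_inner_products_le y
  simp only [hcoef] at hbes
  refine hbes.trans (pow_le_pow_left₀ (norm_nonneg _) ?_ 2)
  have hmeas : measureUnivNNReal (volume : Measure (UnitAddTorus d)) = 1 := by
    simp [measureUnivNNReal]
  refine (le_trans ?_ hGle)
  have := (ContinuousMap.toLp (E := ℂ) 2 (volume : Measure (UnitAddTorus d)) ℂ).le_opNorm G
  refine this.trans ?_
  refine (mul_le_mul_of_nonneg_right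
    (ContinuousMap.toLp_norm_le (p := 2) (𝕜 := ℂ) (μ := (volume : Measure (UnitAddTorus d))))
    (norm_nonneg G)).trans_eq ?_
  rw [hmeas]; simp

/-- From `∑ ‖b‖² (r K(r ρ))² ≤ M²` for all `r > 0`, at most linearly many coefficients:
`∑_{ρ² ≤ X} ‖b‖² ≤ (M / (c K c))² X`. -/
theorem sum_sq_le_mul_of_forall_height {b : A → ℂ} {ρ : A → ℝ} (hρ : ∀ a, 0 < ρ a) {K : ℝ → ℝ}
    (hKpos : ∀ x, 0 < x → 0 < K x) (hKanti : AntitoneOn K (Set.Ioi 0)) {M : ℝ}
    (hbd : ∀ r : ℝ, 0 < r → ∀ T : Finset A, ∑ a ∈ T, (‖b a‖ * (r * K (r * ρ a))) ^ 2 ≤ M ^ 2)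
    {c : ℝ} (hc : 0 < c) (T : Finset A) {X : ℝ} (hX : 0 < X) (hT : ∀ a ∈ T, ρ a ^ 2 ≤ X) :
    ∑ a ∈ T, ‖b a‖ ^ 2 ≤ M ^ 2 / (c * K c) ^ 2 * X := by
  set r := c / Real.sqrt X with hr
  have hsX : 0 < Real.sqrt X := Real.sqrt_pos.mpr hX
  have hr0 : 0 < r := div_pos hc hsX
  have hKc : 0 < K c := hKpos c hc
  have key : ∀ a ∈ T, ‖b a‖ ^ 2 * (r * K c) ^ 2 ≤ (‖b a‖ * (r * K (r * ρ a))) ^ 2 := by
    intro a ha
    rw [← mul_pow]
    refine pow_le_pow_left₀ (by positivity) ?_ 2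
    refine mul_le_mul_of_nonneg_left (mul_le_mul_of_nonneg_left ?_ hr0.le) (norm_nonneg _)
    refine hKanti (Set.mem_Ioi.mpr (mul_pos hr0 (hρ a))) (Set.mem_Ioi.mpr hc) ?_
    rw [hr, div_mul_eq_mul_div, div_le_iff₀ hsX]
    exact mul_le_mul_of_nonneg_left ((Real.le_sqrt (hρ a).le hX.le).mpr (hT a ha)) hc.le
  have h := (Finset.sum_le_sum key).trans (hbd r hr0 T)
  rw [← Finset.sum_mul] at h
  rw [div_mul_eq_mul_div, le_div_iff₀ (by positivity)]
  have hexp : (r * K c) ^ 2 * X = (c * K c) ^ 2 := by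
    rw [hr, mul_pow, mul_pow, div_pow, Real.sq_sqrt hX.le]
    field_simp
  calc (∑ a ∈ T, ‖b a‖ ^ 2) * (c * K c) ^ 2 = (∑ a ∈ T, ‖b a‖ ^ 2) * (r * K c) ^ 2 * X := by
        rw [← hexp]; ring
    _ ≤ M ^ 2 * X := mul_le_mul_of_nonneg_right h hX.le

/-- The two steps together: a series `∑ b_a r K(r ρ_a) e(k_a x)` bounded by `M` at every height. -/
theorem sum_sq_le_mul_of_bounded_expansion {k : A → d → ℤ} (hk : Function.Injective k) {b : A → ℂ}
    {ρ : A → ℝ} (hρ : ∀ a, 0 < ρ a) {K : ℝ → ℝ} (hKpos : ∀ x, 0 < x → 0 < K x)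
    (hKanti : AntitoneOn K (Set.Ioi 0)) {M : ℝ} (hM : 0 ≤ M)
    (hsum : ∀ r : ℝ, 0 < r → Summable fun a => ‖b a‖ * (r * K (r * ρ a)))
    (hbd : ∀ r : ℝ, 0 < r → ∀ x : d → ℝ,
      ‖∑' a, b a * ((r * K (r * ρ a) : ℝ) : ℂ)
        * exp (2 * Real.pi * I * ∑ i, (x i : ℂ) * (k a i : ℂ))‖ ≤ M)
    {c : ℝ} (hc : 0 < c) (T : Finset A) {X : ℝ} (hX : 0 < X) (hT : ∀ a ∈ T, ρ a ^ 2 ≤ X) :
    ∑ a ∈ T, ‖b a‖ ^ 2 ≤ M ^ 2 / (c * K c) ^ 2 * X := by
  refine sum_sq_le_mul_of_forall_height hρ hKpos hKanti (fun r hr U => ?_) hc T hX hT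
  have hn : ∀ a, ‖b a * ((r * K (r * ρ a) : ℝ) : ℂ)‖ = ‖b a‖ * (r * K (r * ρ a)) := fun a => by
    rw [norm_mul, Complex.norm_real,
      Real.norm_of_nonneg (mul_nonneg hr.le (hKpos _ (mul_pos hr (hρ a))).le)]
  have := sum_sq_le_of_bounded hk (c := fun a => b a * ((r * K (r * ρ a) : ℝ) : ℂ))
    (by simpa only [hn] using hsum r hr) hM (hbd r hr) U
  simpa only [hn] using this

end Fermat.Agent.LT.RankinSelberg
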