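/-
Dirichlet series over primes of degree one, and over those split in an extension.
-/
import Fermat.Agent.Density.Zeta
import Mathlib.NumberTheory.RamificationInertia.Basic

set_option autoImplicit false
set_option linter.deprecated false

noncomputable section

namespace Fermat.Agent.LT.RankinSelberg

open NumberField Ideal Filter Topology

variable (K : Type*) [Field K] [NumberField K]

/-- Primes of degree one: ideals of prime norm. -/
def DegOne : Type _ := {I : Ideal (𝓞 K) // (absNorm I).Prime}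

variable {K}

/-- The norm of a prime of degree one. -/
def DegOne.norm (v : DegOne K) : ℕ := absNorm v.1

theorem DegOne.isPrime (v : DegOne K) : v.1.IsPrime :=
  isPrime_of_irreducible_absNorm v.2

theorem DegOne.one_le_norm (v : DegOne K) : 1 ≤ v.norm := v.2.one_lt.le

variable (K)

/-- Reindexing by the rational prime. -/
def degOneEquiv : (Σ p : Nat.Primes, {I : Ideal (𝓞 K) // absNorm I = p}) ≃ DegOne K where
  toFun x := ⟨x.2.1, x.2.2.symm ▸ x.1.2⟩
  invFun v := ⟨⟨absNorm v.1, v.2⟩, ⟨v.1, rfl⟩⟩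
  left_inv := by
    rintro ⟨⟨p, hp⟩, ⟨I, hI⟩⟩
    obtain rfl : absNorm I = p := hI
    rfl
  right_inv _ := rfl

/-- `∑_{deg v = 1} Nv ^ (-s) = log (1 / (s - 1)) + O(1)`. -/
theorem exists_bound_degOne :
    ∃ B : ℝ, ∀ᶠ s in 𝓝[>] (1 : ℝ),
      Summable (fun v : DegOne K => (v.norm : ℝ) ^ (-s)) ∧
        |(∑' v : DegOne K, (v.norm : ℝ) ^ (-s)) + Real.log (s - 1)| ≤ B := by
  obtain ⟨B, hB⟩ := Fermat.Agent.Density.exists_bound_primeSum K
  refine ⟨B, ?_⟩
  filter_upwards [hB] with s ⟨hs, hb⟩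
  have hterm : ∀ p : Nat.Primes, (∑' I : {I : Ideal (𝓞 K) // absNorm I = p},
      (((degOneEquiv K ⟨p, I⟩).norm : ℕ) : ℝ) ^ (-s)) = Fermat.Agent.Density.zetaTerm K s p := by
    intro p
    have : Fintype {I : Ideal (𝓞 K) // absNorm I = p} := Fintype.ofFinite _
    rw [tsum_fintype, Finset.sum_congr rfl (g := fun _ => ((p : ℕ) : ℝ) ^ (-s)) fun I _ => by
      show ((absNorm I.1 : ℕ) : ℝ) ^ (-s) = _; rw [I.2]]
    rw [Finset.sum_const, Finset.card_univ, nsmul_eq_mul, Fermat.Agent.Density.zetaTerm,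
      Fermat.Agent.Density.idealCount, Nat.card_eq_fintype_card]
  have hsig : Summable fun x : Σ p : Nat.Primes, {I : Ideal (𝓞 K) // absNorm I = p} =>
      (((degOneEquiv K x).norm : ℕ) : ℝ) ^ (-s) := by
    refine (summable_sigma_of_nonneg fun x => by positivity).mpr ⟨fun p => .of_finite, ?_⟩
    simpa only [hterm] using hs
  refine ⟨(degOneEquiv K).summable_iff.mp hsig, ?_⟩
  rw [← (degOneEquiv K).tsum_eq, hsig.tsum_sigma]
  simpa only [hterm] using hb

variable {K}
variable {L : Type*} [Field L] [NumberField L] [Algebra K L]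

theorem absNorm_under_degOne (w : DegOne L) : absNorm (w.1.under (𝓞 K)) = w.norm := by
  have := w.isPrime
  have hne : w.1.under (𝓞 K) ≠ ⊤ := IsPrime.ne_top inferInstance
  have hinj : Function.Injective (quotientMap w.1 (algebraMap (𝓞 K) (𝓞 L)) le_rfl :
      𝓞 K ⧸ w.1.under (𝓞 K) →+* 𝓞 L ⧸ w.1) := quotientMap_injective
  have hdvd := AddSubgroup.card_dvd_of_injective ((quotientMap w.1
      (algebraMap (𝓞 K) (𝓞 L)) le_rfl :
      𝓞 K ⧸ w.1.under (𝓞 K) →+* 𝓞 L ⧸ w.1).toAddMonoidHom) hinj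
  have e1 : absNorm (w.1.under (𝓞 K)) = Nat.card (𝓞 K ⧸ w.1.under (𝓞 K)) := by
    rw [absNorm_apply]; rfl
  have e2 : w.norm = Nat.card (𝓞 L ⧸ w.1) := by rw [DegOne.norm, absNorm_apply]; rfl
  rw [← e1, ← e2] at hdvd
  exact ((Nat.dvd_prime w.2).mp hdvd).resolve_left fun h => hne (absNorm_eq_one_iff.mp h)

/-- The prime below a prime of degree one. -/
def DegOne.below (w : DegOne L) : DegOne K :=
  ⟨w.1.under (𝓞 K), (absNorm_under_degOne (K := K) w).symm ▸ w.2⟩

theorem DegOne.norm_below (w : DegOne L) : (w.below : DegOne K).norm = w.norm :=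
  absNorm_under_degOne w

variable (L) in
/-- `v` has a prime of degree one above it in `L`. -/
def SplitsIn (v : DegOne K) : Prop := ∃ w : DegOne L, w.below = v

theorem below_fibre_finite (v : DegOne K) : {w : DegOne L | w.below = v}.Finite :=
  ((finite_setOfPred_absNorm_eq (S := 𝓞 L) v.norm).preimage
    (Subtype.val_injective.injOn)).subset fun (w : DegOne L) (hw : DegOne.below w = v) => by
      show absNorm w.1 = v.norm
      rw [← hw, DegOne.norm_below]; rfl

theorem card_below_fibre_le (v : DegOne K) :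
    Nat.card {w : DegOne L // w.below = v} ≤ Module.finrank K L := by
  classical
  have := v.isPrime
  have hv0 : v.1 ≠ ⊥ := fun h => Nat.not_prime_zero (by simpa [h] using v.2)
  have : v.1.IsMaximal := v.isPrime.isMaximal hv0
  have : NoZeroSMulDivisors (𝓞 K) (𝓞 L) := ⟨fun {c x} h => by
    rw [Algebra.smul_def] at h
    exact (mul_eq_zero.mp h).imp_left fun hc =>
      (FaithfulSMul.algebraMap_injective (𝓞 K) (𝓞 L)) (hc.trans (map_zero _).symm)⟩
  refine le_trans ?_ (Ideal.card_primesOverFinset_le_finrank (𝓞 L) K L hv0)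
  rw [← Nat.card_eq_finsetCard]
  refine Nat.card_le_card_of_injective (fun w => ⟨w.1.1,
    (IsDedekindDomain.mem_primesOverFinset_iff hv0 (𝓞 L)).mpr ⟨w.1.isPrime, ⟨?_⟩⟩⟩) ?_
  · exact (congrArg Subtype.val w.2).symm
  · intro a b h
    exact Subtype.ext (Subtype.ext (Subtype.ext_iff.mp h :))

theorem finite_bad_galois :
    {w : DegOne L | ∃ σ : L ≃ₐ[K] L, σ ≠ 1 ∧ w.1.map (galRestrict (𝓞 K) K L (𝓞 L) σ) = w.1}.Finite := by
  classical
  have key : ∀ σ : L ≃ₐ[K] L, σ ≠ 1 →
      {w : DegOne L | w.1.map (galRestrict (𝓞 K) K L (𝓞 L) σ) = w.1}.Finite := by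
    intro σ hσ
    obtain ⟨x, hx⟩ : ∃ x : 𝓞 L, galRestrict (𝓞 K) K L (𝓞 L) σ x ≠ x := by
      by_contra h
      push Not at h
      exact hσ ((galRestrict (𝓞 K) K L (𝓞 L)).injective (by
        rw [map_one]; exact AlgEquiv.ext h))
    set d := galRestrict (𝓞 K) K L (𝓞 L) σ x - x with hd
    have hd0 : d ≠ 0 := sub_ne_zero.mpr hx
    refine ((finite_setOfPred_absNorm_le (S := 𝓞 L) (absNorm (span {d}))).preimage
      Subtype.val_injective.injOn).subset fun w (hw : w.1.map _ = w.1) => ?_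
    -- the residue field is prime, so `σ` acts trivially on it
    have hmem : d ∈ w.1 := by
      have hp : (absNorm w.1).Prime := w.2
      have hcard : Nat.card (𝓞 L ⧸ w.1) = absNorm w.1 := by rw [absNorm_apply]; rfl
      have : Fact (Nat.card (𝓞 L ⧸ w.1)).Prime := ⟨hcard ▸ hp⟩
      obtain ⟨n, hn⟩ : ∃ n : ℤ, (n : 𝓞 L) - x ∈ w.1 := by
        obtain ⟨n, hn⟩ := AddSubgroup.mem_zmultiples_iff.mp
          (mem_zmultiples_of_prime_card (G := 𝓞 L ⧸ w.1) rfl (g := 1)
            (g' := Ideal.Quotient.mk w.1 x) (by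
              intro h
              have : Subsingleton (𝓞 L ⧸ w.1) := subsingleton_of_zero_eq_one h.symm
              have h1 := Nat.card_of_subsingleton (0 : 𝓞 L ⧸ w.1)
              exact hp.one_lt.ne' (hcard.symm.trans h1)))
        exact ⟨n, Ideal.Quotient.eq.mp (by rw [← hn, map_intCast, zsmul_eq_mul, mul_one])⟩
      have h2 : galRestrict (𝓞 K) K L (𝓞 L) σ ((n : 𝓞 L) - x) ∈ w.1 := by
        rw [← hw]; exact mem_map_of_mem _ hn
      rw [map_sub, map_intCast] at h2
      have h3 := w.1.sub_mem hn h2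
      simpa [hd] using h3
    show absNorm w.1 ≤ absNorm (span {d})
    refine Nat.le_of_dvd (Nat.pos_of_ne_zero fun h => hd0 ?_)
      (absNorm_dvd_absNorm_of_le ((span_singleton_le_iff_mem _).mpr hmem))
    simpa using absNorm_eq_zero_iff.mp h
  refine (Set.finite_iUnion fun σ : {σ : L ≃ₐ[K] L // σ ≠ 1} => key σ.1 σ.2).subset ?_
  rintro w ⟨σ, hσ, hw⟩
  exact Set.mem_iUnion.mpr ⟨⟨σ, hσ⟩, hw⟩

theorem galois_fibre_eq [IsGalois K L] {v : DegOne K} {w : DegOne L} (hw : w.below = v)
    (hgood : ∀ σ : L ≃ₐ[K] L, σ ≠ 1 → w.1.map (galRestrict (𝓞 K) K L (𝓞 L) σ) ≠ w.1) :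
    Module.finrank K L ≤ Nat.card {w : DegOne L // w.below = v} := by
  classical
  have : Finite {w : DegOne L // w.below = v} := (below_fibre_finite v).to_subtype
  have hcomp : ∀ (τ : L ≃ₐ[K] L) (I : Ideal (𝓞 L)),
      absNorm (I.map (galRestrict (𝓞 K) K L (𝓞 L) τ)) = absNorm I := by
    intro τ I
    rw [absNorm_apply, absNorm_apply]
    exact (Nat.card_congr (Ideal.quotientEquiv I _
      (galRestrict (𝓞 K) K L (𝓞 L) τ).toRingEquiv rfl).toEquiv).symm
  have hunder : ∀ τ : L ≃ₐ[K] L,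
      (w.1.map (galRestrict (𝓞 K) K L (𝓞 L) τ)).under (𝓞 K) = v.1 := by
    intro τ
    rw [← congrArg Subtype.val hw]
    ext a
    simp only [Ideal.under_def, Ideal.mem_comap, DegOne.below]
    constructor
    · intro ha
      obtain ⟨b, hb, he⟩ := (Ideal.mem_map_iff_of_surjective _
        (galRestrict (𝓞 K) K L (𝓞 L) τ).surjective).mp ha
      have : b = algebraMap (𝓞 K) (𝓞 L) a := (galRestrict (𝓞 K) K L (𝓞 L) τ).injective
        (he.trans (AlgEquiv.commutes _ a).symm)
      rwa [← this]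
    · intro ha
      rw [← AlgEquiv.commutes (galRestrict (𝓞 K) K L (𝓞 L) τ) a]
      exact mem_map_of_mem _ ha
  let f : (L ≃ₐ[K] L) → {w : DegOne L // w.below = v} := fun τ =>
    ⟨⟨w.1.map (galRestrict (𝓞 K) K L (𝓞 L) τ), (hcomp τ w.1).symm ▸ w.2⟩, Subtype.ext (hunder τ)⟩
  have hf : Function.Injective f := by
    intro τ τ' h
    have h' : w.1.map (galRestrict (𝓞 K) K L (𝓞 L) τ) = w.1.map (galRestrict (𝓞 K) K L (𝓞 L) τ') :=
      congrArg (fun z => z.1.1) h
    by_contra hne
    refine hgood (τ'⁻¹ * τ) (fun h1 => hne (inv_mul_eq_one.mp h1).symm) ?_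
    have h'' := congrArg (Ideal.map (galRestrict (𝓞 K) K L (𝓞 L) τ'⁻¹)) h'
    have e : ∀ a b : L ≃ₐ[K] L, (w.1.map (galRestrict (𝓞 K) K L (𝓞 L) b)).map
        (galRestrict (𝓞 K) K L (𝓞 L) a) = w.1.map (galRestrict (𝓞 K) K L (𝓞 L) (a * b)) := by
      intro a b
      rw [map_mul]
      exact Ideal.map_map (f := ((galRestrict (𝓞 K) K L (𝓞 L) b : 𝓞 L →+* 𝓞 L)))
        (g := ((galRestrict (𝓞 K) K L (𝓞 L) a : 𝓞 L →+* 𝓞 L)))
    rw [e, e, inv_mul_cancel] at h''
    refine h''.trans ?_
    rw [map_one]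
    exact Ideal.map_id w.1
  rw [← IsGalois.card_aut_eq_finrank K L]
  exact Nat.card_le_card_of_injective f hf

/-- A prime split in a larger field is split in a smaller one. -/
theorem SplitsIn.of_tower {M : Type*} [Field M] [NumberField M] [Algebra K M] [Algebra L M]
    [IsScalarTower K L M] {v : DegOne K} (h : SplitsIn M v) : SplitsIn L v := by
  obtain ⟨u, rfl⟩ := h
  refine ⟨u.below, Subtype.ext ?_⟩
  show (u.1.under (𝓞 L)).under (𝓞 K) = u.1.under (𝓞 K)
  exact Ideal.under_under _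

open Classical in
/-- The series of the primes below has fibres of at most `[L : K]` terms. -/
theorem tsum_le_finrank_mul_tsum_split {s : ℝ}
    (hK : Summable fun v : DegOne K => (v.norm : ℝ) ^ (-s))
    (hL : Summable fun w : DegOne L => (w.norm : ℝ) ^ (-s)) :
    (∑' w : DegOne L, (w.norm : ℝ) ^ (-s)) ≤
      Module.finrank K L * ∑' v : DegOne K, (if SplitsIn L v then (v.norm : ℝ) ^ (-s) else 0) := by
  have hsig := (Equiv.sigmaFiberEquiv (DegOne.below (K := K) (L := L))).summable_iff.mpr hL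
  have hsplit : Summable fun v : DegOne K => if SplitsIn L v then (v.norm : ℝ) ^ (-s) else 0 :=
    Summable.of_nonneg_of_le (fun v => by split_ifs <;> positivity)
      (fun v => by split_ifs; exacts [le_rfl, by positivity]) hK
  rw [← (Equiv.sigmaFiberEquiv (DegOne.below (K := K) (L := L))).tsum_eq]
  refine (Summable.tsum_sigma hsig).le.trans ?_
  rw [← tsum_mul_left]
  refine hsig.sigma.tsum_le_tsum (fun v => ?_) (hsplit.mul_left _)
  have : Finite {w : DegOne L // w.below = v} := (below_fibre_finite v).to_subtype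
  have := Fintype.ofFinite {w : DegOne L // w.below = v}
  change (∑' w : {w : DegOne L // w.below = v}, ((w.1.norm : ℕ) : ℝ) ^ (-s)) ≤ _
  rw [tsum_fintype, Finset.sum_congr rfl (g := fun _ => (v.norm : ℝ) ^ (-s)) fun w _ => by
    rw [← w.1.norm_below (K := K), w.2], Finset.sum_const, nsmul_eq_mul, Finset.card_univ,
    ← Nat.card_eq_fintype_card]
  by_cases h : SplitsIn L v
  · rw [if_pos h]
    exact mul_le_mul_of_nonneg_right (Nat.cast_le.mpr (card_below_fibre_le v)) (by positivity)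
  · have : IsEmpty {w : DegOne L // w.below = v} := ⟨fun w => h ⟨w.1, w.2⟩⟩
    simp [h]

open Classical in
/-- In a Galois extension almost every split prime has exactly `[L : K]` primes above it. -/
theorem exists_finrank_mul_tsum_split_le [IsGalois K L] :
    ∃ c : ℝ, ∀ s : ℝ, 0 < s → (Summable fun v : DegOne K => (v.norm : ℝ) ^ (-s)) →
      (Summable fun w : DegOne L => (w.norm : ℝ) ^ (-s)) →
      Module.finrank K L * ∑' v : DegOne K, (if SplitsIn L v then (v.norm : ℝ) ^ (-s) else 0) ≤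
        (∑' w : DegOne L, (w.norm : ℝ) ^ (-s)) + c := by
  set bad := (finite_bad_galois (K := K) (L := L)).toFinset.image (DegOne.below (K := K)) with hbad
  refine ⟨Module.finrank K L * bad.card, fun s hs hK hL => ?_⟩
  have hsig := (Equiv.sigmaFiberEquiv (DegOne.below (K := K) (L := L))).summable_iff.mpr hL
  have hsplit : Summable fun v : DegOne K => if SplitsIn L v then (v.norm : ℝ) ^ (-s) else 0 :=
    Summable.of_nonneg_of_le (fun v => by split_ifs <;> positivity)
      (fun v => by split_ifs; exacts [le_rfl, by positivity]) hK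
  have hb : HasSum (fun v : DegOne K => if v ∈ bad then (Module.finrank K L : ℝ) else 0)
      (Module.finrank K L * bad.card) := by
    have h : HasSum (fun v : DegOne K => if v ∈ bad then (Module.finrank K L : ℝ) else 0)
        (∑ v ∈ bad, if v ∈ bad then (Module.finrank K L : ℝ) else 0) :=
      hasSum_sum_of_ne_finset_zero fun v hv => if_neg hv
    rwa [Finset.sum_congr rfl (g := fun _ => (Module.finrank K L : ℝ)) (fun v hv => if_pos hv),
      Finset.sum_const, nsmul_eq_mul, mul_comm] at h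
  rw [← (Equiv.sigmaFiberEquiv (DegOne.below (K := K) (L := L))).tsum_eq, ← hb.tsum_eq,
    ← tsum_mul_left]
  refine le_trans ((hsplit.mul_left _).tsum_le_tsum (fun v => ?_) (hsig.sigma.add hb.summable))
    (le_of_eq ((hsig.sigma.tsum_add hb.summable).trans ?_))
  · have : Finite {w : DegOne L // w.below = v} := (below_fibre_finite v).to_subtype
    have := Fintype.ofFinite {w : DegOne L // w.below = v}
    change _ ≤ (∑' w : {w : DegOne L // w.below = v}, ((w.1.norm : ℕ) : ℝ) ^ (-s)) + _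
    rw [tsum_fintype, Finset.sum_congr rfl (g := fun _ => (v.norm : ℝ) ^ (-s)) fun w _ => by
      rw [← w.1.norm_below (K := K), w.2], Finset.sum_const, nsmul_eq_mul, Finset.card_univ,
      ← Nat.card_eq_fintype_card]
    have hx1 : (v.norm : ℝ) ^ (-s) ≤ 1 :=
      Real.rpow_le_one_of_one_le_of_nonpos (by exact_mod_cast v.one_le_norm) (by linarith)
    have hx0 : (0 : ℝ) ≤ (v.norm : ℝ) ^ (-s) := by positivity
    by_cases h : SplitsIn L v
    · rw [if_pos h]
      by_cases hv : v ∈ bad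
      · rw [if_pos hv]
        have h1 := mul_le_mul_of_nonneg_left hx1 (Nat.cast_nonneg (α := ℝ) (Module.finrank K L))
        have h2 : (0 : ℝ) ≤ Nat.card {w : DegOne L // w.below = v} * (v.norm : ℝ) ^ (-s) := by
          positivity
        linarith
      · rw [if_neg hv, add_zero]
        obtain ⟨w, hw⟩ := h
        refine mul_le_mul_of_nonneg_right (Nat.cast_le.mpr (galois_fibre_eq hw fun σ hσ he => hv ?_))
          hx0
        exact Finset.mem_image.mpr ⟨w, Set.Finite.mem_toFinset _ |>.mpr ⟨σ, hσ, he⟩, hw⟩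
    · rw [if_neg h, mul_zero]
      split_ifs <;> positivity
  · exact congrArg (· + _) (Summable.tsum_sigma hsig).symm

/-- The lower bound for the genuine absolute squares of traces: `4` at primes split in `M`,
`0` at the others split in `L`, `1` elsewhere, has mean one when `[L : K] = 3`, `[M : K] = 12`. -/
theorem exists_lower_bound_mean (M : Type*) [Field M] [NumberField M] [Algebra K M] [Algebra L M]
    [IsScalarTower K L M] [IsGalois K L] (hL : Module.finrank K L = 3)
    (hM : Module.finrank K M = 12) (y : DegOne K → ℝ)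
    (hyM : ∀ v, SplitsIn M v → y v = 4)
    (hyL : ∀ v, SplitsIn L v → ¬ SplitsIn M v → y v = 0)
    (hy1 : ∀ v, ¬ SplitsIn L v → y v = 1) :
    ∃ B : ℝ, ∀ᶠ s in 𝓝[>] (1 : ℝ),
      -Real.log (s - 1) - B ≤ ∑' v : DegOne K, y v * (v.norm : ℝ) ^ (-s) := by
  classical
  obtain ⟨B₀, h₀⟩ := exists_bound_degOne K
  obtain ⟨B₁, h₁⟩ := exists_bound_degOne L
  obtain ⟨B₂, h₂⟩ := exists_bound_degOne M
  obtain ⟨c, hc⟩ := exists_finrank_mul_tsum_split_le (K := K) (L := L)
  refine ⟨B₀ + B₁ / 3 + B₂ / 3 + c / 3, ?_⟩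
  filter_upwards [h₀, h₁, h₂, self_mem_nhdsWithin] with s ⟨s0, b0⟩ ⟨s1, b1⟩ ⟨s2, b2⟩ (hs : 1 < s)
  have hle : ∀ (P : DegOne K → Prop), Summable fun v : DegOne K =>
      if P v then (v.norm : ℝ) ^ (-s) else 0 := fun P =>
    Summable.of_nonneg_of_le (fun v => by split_ifs <;> positivity)
      (fun v => by split_ifs; exacts [le_rfl, by positivity]) s0
  have hpt : ∀ v : DegOne K, y v * (v.norm : ℝ) ^ (-s) = (v.norm : ℝ) ^ (-s)
      - (if SplitsIn L v then (v.norm : ℝ) ^ (-s) else 0)
      + 4 * (if SplitsIn M v then (v.norm : ℝ) ^ (-s) else 0) := by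
    intro v
    by_cases hMv : SplitsIn M v
    · simp [hyM v hMv, hMv, SplitsIn.of_tower (L := L) hMv]
    by_cases hLv : SplitsIn L v
    · simp [hyL v hLv hMv, hLv, hMv]
    · simp [hy1 v hLv, hLv, hMv]
  rw [tsum_congr hpt, Summable.tsum_add (s0.sub (hle _)) ((hle _).mul_left 4),
    Summable.tsum_sub s0 (hle _), tsum_mul_left]
  have e1 := hc s (by linarith) s0 s1
  rw [hL] at e1
  have e2 := tsum_le_finrank_mul_tsum_split (K := K) (L := M) s0 s2
  rw [hM] at e2
  push_cast at e1 e2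
  have := abs_le.mp b0
  have := abs_le.mp b1
  have := abs_le.mp b2
  linarith

end Fermat.Agent.LT.RankinSelberg
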