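/-
Pinning: eigenvalues with the right cube relation equal the trace outside a set of primes with
convergent `∑ 1 / Nv`.
-/
import Fermat.Agent.LT.RankinSelberg.SecondMoment
import Fermat.Agent.LT.RankinSelberg.Split

set_option autoImplicit false

noncomputable section

namespace Fermat.Agent.LT.RankinSelberg

open NumberField Ideal Filter Topology

variable {K : Type*} [Field K] [NumberField K]

/-- `∑ 1 / Nv ^ 2` over finite sets of primes of degree one is bounded. -/
theorem exists_sum_inv_sq_le (K : Type*) [Field K] [NumberField K] :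
    ∃ D : ℝ, ∀ T : Finset (DegOne K), ∑ v ∈ T, ((v.norm : ℝ) ^ 2)⁻¹ ≤ D := by
  obtain ⟨B, hB⟩ := exists_bound_degOne K
  obtain ⟨s, ⟨hs, -⟩, h1, h2⟩ := (hB.and (Ioo_mem_nhdsGT (show (1 : ℝ) < 2 by norm_num))).exists
  refine ⟨∑' v : DegOne K, (v.norm : ℝ) ^ (-s), fun T => le_trans ?_
    (hs.sum_le_tsum T fun v _ => by positivity)⟩
  refine Finset.sum_le_sum fun v _ => ?_
  rw [← Real.rpow_natCast, ← Real.rpow_neg (Nat.cast_nonneg _)]
  exact Real.rpow_le_rpow_of_exponent_le (by exact_mod_cast v.one_le_norm) (by push_cast; linarith)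

variable {L M : Type*} [Field L] [NumberField L] [Algebra K L] [Field M] [NumberField M]
  [Algebra K M] [Algebra L M] [IsScalarTower K L M] [IsGalois K L] {S : Set (DegOne K)}
  {a t : DegOne K → ℝ} {C : ℝ}

open Classical in
/-- **Pinning.**  `t v` is the genuine trace: `±2` at primes split in `M`, `0` at the others
split in `L`, `±1` at primes inert in `L`.  `a` agrees with `t` at split primes and satisfies
`a³ - 3a = t³ - 3t` at inert primes outside the exceptional set `S`; its squarefree second moment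
outside `S` grows at most linearly.  Then `a = t` outside a set with `∑ 1 / Nv < ∞`. -/
theorem summable_inv_ne_trace (hL : Module.finrank K L = 3) (hM : Module.finrank K M = 12)
    (hS : S.Finite)
    (htM : ∀ v, v ∉ S → SplitsIn M v → t v ^ 2 = 4)
    (htL : ∀ v, v ∉ S → SplitsIn L v → ¬ SplitsIn M v → t v = 0)
    (ht1 : ∀ v, v ∉ S → ¬ SplitsIn L v → t v = 1 ∨ t v = -1)
    (hsplit : ∀ v, v ∉ S → SplitsIn L v → a v = t v)
    (hinert : ∀ v, v ∉ S → ¬ SplitsIn L v → a v ^ 3 - 3 * a v = t v ^ 3 - 3 * t v)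
    (hmom : SquarefreeMomentBound (fun v : {v : DegOne K // v ∉ S} => v.1.norm)
      (fun v => a v.1 ^ 2) C) :
    Summable fun v : {v : DegOne K // v ∉ S ∧ a v ≠ t v} => ((v.1.norm : ℝ))⁻¹ := by
  have hcase : ∀ v, v ∉ S → a v = t v ∨ (a v ^ 2 = 4 ∧ t v ^ 2 = 1) := by
    intro v hv
    by_cases h : SplitsIn L v
    · exact Or.inl (hsplit v hv h)
    · have h1 := ht1 v hv h
      rcases sq_ge_of_cube_sub_eq (e := -t v)
        (by rcases h1 with h1 | h1 <;> simp [h1])
        (by rw [hinert v hv h]; rcases h1 with h1 | h1 <;> rw [h1] <;> norm_num) with h2 | h2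
      · exact Or.inl (by simpa using h2)
      · exact Or.inr ⟨h2, by rcases h1 with h1 | h1 <;> simp [h1]⟩
  have ht4 : ∀ v, v ∉ S → t v ^ 2 ≤ 4 := by
    intro v hv
    by_cases hMv : SplitsIn M v
    · exact (htM v hv hMv).le
    by_cases hLv : SplitsIn L v
    · simp [htL v hv hLv hMv]
    · rcases ht1 v hv hLv with h | h <;> simp [h]
  obtain ⟨D, hD⟩ := exists_sum_inv_sq_le K
  set y : DegOne K → ℝ := fun v =>
    if SplitsIn M v then 4 else if SplitsIn L v then 0 else 1 with hy
  obtain ⟨B, hB⟩ := exists_lower_bound_mean (K := K) (L := L) M hL hM y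
    (fun v h => by simp [hy, h]) (fun v h h' => by simp [hy, h, h']) (fun v h => by
      have : ¬ SplitsIn M v := fun hMv => h (SplitsIn.of_tower hMv)
      simp [hy, h, this])
  have hy' : ∀ v, v ∉ S → y v = t v ^ 2 := by
    intro v hv
    by_cases hMv : SplitsIn M v
    · simp [hy, hMv, htM v hv hMv]
    by_cases hLv : SplitsIn L v
    · simp [hy, hMv, hLv, htL v hv hLv hMv]
    · rcases ht1 v hv hLv with h | h <;> simp [hy, hMv, hLv, h]
  have hyb : ∀ v, 0 ≤ y v ∧ y v ≤ 4 := fun v => by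
    simp only [hy]; split_ifs <;> norm_num
  obtain ⟨B₀, hB₀⟩ := exists_bound_degOne K
  have hxy : ∀ v : {v : DegOne K // v ∉ S}, y v.1 ≤ a v.1 ^ 2 := by
    intro v
    rw [hy' v.1 v.2]
    rcases hcase v.1 v.2 with h | ⟨h, h'⟩
    · rw [h]
    · rw [h, h']; norm_num
  have hxb : ∀ v : {v : DegOne K // v ∉ S}, a v.1 ^ 2 ≤ 4 := by
    intro v
    rcases hcase v.1 v.2 with h | ⟨h, -⟩
    · rw [h]; exact ht4 v.1 v.2
    · exact h.le
  have key := summable_inv_of_pinned (ι := {v : DegOne K // v ∉ S})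
    (N := fun v => v.1.norm) (x := fun v => a v.1 ^ 2) (y := fun v => y v.1)
    (B' := B + 4 * hS.toFinset.card) (δ := 3) (by norm_num) (fun v => v.1.one_le_norm)
    (fun v => (hyb v.1).1) hxy
    (fun T s h1 h2 => sum_mul_rpow_le_log hmom (fun v => v.1.one_le_norm) (fun v => sq_nonneg _)
      hxb (fun T => by
        refine le_trans (le_of_eq ?_) (hD (T.map (Function.Embedding.subtype _)))
        rw [Finset.sum_map]; rfl) T h1 h2)
    (by
      filter_upwards [hB, hB₀, self_mem_nhdsWithin] with s hs h₀ (hs1 : 1 < s)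
      have hsum : Summable fun v : DegOne K => y v * (v.norm : ℝ) ^ (-s) :=
        Summable.of_nonneg_of_le (fun v => mul_nonneg (hyb v).1 (by positivity))
          (fun v => mul_le_mul_of_nonneg_right (hyb v).2 (by positivity)) (h₀.1.mul_left 4)
      rw [← hsum.sum_add_tsum_compl (s := hS.toFinset)] at hs
      have hfin : ∑ v ∈ hS.toFinset, y v * (v.norm : ℝ) ^ (-s) ≤ 4 * hS.toFinset.card := by
        refine (Finset.sum_le_sum (g := fun _ => (4 : ℝ)) fun v _ => ?_).trans (by simp [mul_comm])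
        exact le_trans (mul_le_mul_of_nonneg_right (hyb v).2 (by positivity))
          (mul_le_of_le_one_right (by norm_num) (Real.rpow_le_one_of_one_le_of_nonpos
            (by exact_mod_cast v.one_le_norm) (by linarith)))
      have heq : (∑' v : {v : DegOne K // v ∉ S}, y v.1 * (v.1.norm : ℝ) ^ (-s))
          = ∑' v : ↥((hS.toFinset : Set (DegOne K))ᶜ), y v.1 * ((v.1.norm : ℕ) : ℝ) ^ (-s) :=
        ((Equiv.subtypeEquivRight fun v => by simp).tsum_eq
          (fun v : ↥((hS.toFinset : Set (DegOne K))ᶜ) => y v.1 * ((v.1.norm : ℕ) : ℝ) ^ (-s)))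
      rw [heq]
      linarith)
  let f : {v : DegOne K // v ∉ S ∧ a v ≠ t v} →
      {v : {v : DegOne K // v ∉ S} // y v.1 + 3 ≤ a v.1 ^ 2} := fun v =>
    ⟨⟨v.1, v.2.1⟩, by
      obtain ⟨h, h'⟩ := (hcase v.1 v.2.1).resolve_left v.2.2
      show y v.1 + 3 ≤ a v.1 ^ 2
      rw [hy' v.1 v.2.1, h, h']; norm_num⟩
  exact key.comp_injective (i := f) fun v w h => Subtype.ext (congrArg (fun z => z.1.1) h)

end Fermat.Agent.LT.RankinSelberg
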